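/-
[MZ-J]/[J-QUOT], analytic supplier, descent part (D)+(E): interface file.

For a Weierstrass curve `W` over a field `F`, a point `Q` and `p : ℕ` (in the applications `Q` has
odd prime order `p`), Velu's data of the quotient by `⟨Q⟩`:

* `mzj_ds_x`, `mzj_ds_y`     : the coordinate functions on points (value `0` at the zero point);
* `mzj_ds_t`, `mzj_ds_u`     : `t(x) = 6x² + b₂x + b₄`, `u(x) = 4x³ + b₂x² + 2b₄x + b₆`;
* `mzj_ds_X`, `mzj_ds_Y`     : `X(P) = x(P) + Σ_{k=1}^{p-1} (x(P + kQ) - x(kQ))`, same with `y`;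
* `mzj_ds_v`, `mzj_ds_w`     : `v = Σ_{k=1}^{p/2} t(x(kQ))`, `w = Σ_{k=1}^{p/2} (u(x(kQ)) + x(kQ) t(x(kQ)))`
                               (half-system sums);
* `mzj_ds_cod W v w`         : the curve `⟨a₁, a₂, a₃, a₄ - 5v, a₆ - b₂v - 7w⟩`;
* `mzj_ds_IsVelu W p Q φ`    : `φ : W(F) →+ W'(F)` has kernel `⟨Q⟩` and is given by `(X, Y)` off `⟨Q⟩`.

Plus the compatibility of all these with base change `Point.map f`.

Owner: helper29.  Prefix `mzj_ds_`.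
-/
import Mathlib
import Fermat.Prelude.Def_FLTPrelim_GaloisRep

set_option autoImplicit false
set_option linter.unusedSectionVars false

namespace Fermat.Agent.MZ

open WeierstrassCurve WeierstrassCurve.Affine WeierstrassCurve.Affine.Point

section generic

variable {F : Type*} [Field F] [DecidableEq F]

/-- The `x`-coordinate of a point (`0` at the zero point). -/
def mzj_ds_x (W : Affine F) : W.Point → F
  | .zero => 0
  | .some x _ _ => x

/-- The `y`-coordinate of a point (`0` at the zero point). -/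
def mzj_ds_y (W : Affine F) : W.Point → F
  | .zero => 0
  | .some _ y _ => y

@[simp] theorem mzj_ds_x_zero (W : Affine F) : mzj_ds_x W (0 : W.Point) = 0 := rfl

@[simp] theorem mzj_ds_y_zero (W : Affine F) : mzj_ds_y W (0 : W.Point) = 0 := rfl

@[simp] theorem mzj_ds_x_some (W : Affine F) {x y : F} (h : W.Nonsingular x y) :
    mzj_ds_x W (Point.some x y h) = x := rfl

@[simp] theorem mzj_ds_y_some (W : Affine F) {x y : F} (h : W.Nonsingular x y) :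
    mzj_ds_y W (Point.some x y h) = y := rfl

/-- A nonzero point is `some` of its coordinates. -/
theorem mzj_ds_eq_some (W : Affine F) {P : W.Point} (hP : P ≠ 0) :
    ∃ h : W.Nonsingular (mzj_ds_x W P) (mzj_ds_y W P),
      P = Point.some (mzj_ds_x W P) (mzj_ds_y W P) h := by
  rcases P with _ | ⟨x, y, h⟩
  · exact absurd rfl hP
  · exact ⟨h, rfl⟩

/-- `t(x) = 6x² + b₂x + b₄`. -/
def mzj_ds_t (W : Affine F) (x : F) : F := 6 * x ^ 2 + W.b₂ * x + W.b₄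

/-- `u(x) = 4x³ + b₂x² + 2b₄x + b₆`. -/
def mzj_ds_u (W : Affine F) (x : F) : F := 4 * x ^ 3 + W.b₂ * x ^ 2 + 2 * W.b₄ * x + W.b₆

/-- Velu's `X`-coordinate of the image of `P` in the quotient by `⟨Q⟩`. -/
def mzj_ds_X (W : Affine F) (p : ℕ) (Q P : W.Point) : F :=
  mzj_ds_x W P + ∑ k ∈ Finset.Ico 1 p, (mzj_ds_x W (P + k • Q) - mzj_ds_x W (k • Q))

/-- Velu's `Y`-coordinate of the image of `P` in the quotient by `⟨Q⟩`. -/
def mzj_ds_Y (W : Affine F) (p : ℕ) (Q P : W.Point) : F :=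
  mzj_ds_y W P + ∑ k ∈ Finset.Ico 1 p, (mzj_ds_y W (P + k • Q) - mzj_ds_y W (k • Q))

/-- Velu's `v = Σ t_R` over a half-system of `⟨Q⟩ ∖ 0`. -/
def mzj_ds_v (W : Affine F) (p : ℕ) (Q : W.Point) : F :=
  ∑ k ∈ Finset.Icc 1 (p / 2), mzj_ds_t W (mzj_ds_x W (k • Q))

/-- Velu's `w = Σ (u_R + x_R t_R)` over a half-system of `⟨Q⟩ ∖ 0`. -/
def mzj_ds_w (W : Affine F) (p : ℕ) (Q : W.Point) : F :=
  ∑ k ∈ Finset.Icc 1 (p / 2),
    (mzj_ds_u W (mzj_ds_x W (k • Q)) + mzj_ds_x W (k • Q) * mzj_ds_t W (mzj_ds_x W (k • Q)))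

/-- Velu's codomain curve `⟨a₁, a₂, a₃, a₄ - 5v, a₆ - b₂v - 7w⟩`. -/
def mzj_ds_cod (W : Affine F) (v w : F) : Affine F :=
  ⟨W.a₁, W.a₂, W.a₃, W.a₄ - 5 * v, W.a₆ - W.b₂ * v - 7 * w⟩

/-- `φ` is Velu's isogeny with kernel `⟨Q⟩`: kernel `⟨Q⟩`, and coordinates `(X, Y)` off `⟨Q⟩`. -/
structure mzj_ds_IsVelu (W : Affine F) (p : ℕ) (Q : W.Point) {W' : Affine F}
    (φ : W.Point →+ W'.Point) : Prop where
  ker : φ.ker = AddSubgroup.zmultiples Q
  coord : ∀ P : W.Point, P ∉ AddSubgroup.zmultiples Q →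
    ∃ h : W'.Nonsingular (mzj_ds_X W p Q P) (mzj_ds_Y W p Q P),
      φ P = Point.some (mzj_ds_X W p Q P) (mzj_ds_Y W p Q P) h

end generic

section baseChange

variable {R : Type*} [CommRing R] (W' : WeierstrassCurve R)
  {F : Type*} [Field F] [DecidableEq F] {K : Type*} [Field K] [DecidableEq K]
  [Algebra R F] [Algebra R K]

theorem mzj_ds_x_map (f : F →ₐ[R] K) (P : (W'⁄F).Point) :
    mzj_ds_x (W'⁄K) (Point.map f P) = f (mzj_ds_x (W'⁄F) P) := by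
  rcases P with _ | ⟨x, y, h⟩
  · show mzj_ds_x (W'⁄K) (Point.map f 0) = f (mzj_ds_x (W'⁄F) 0)
    rw [Point.map_zero, mzj_ds_x_zero, mzj_ds_x_zero, _root_.map_zero]
  · rw [Point.map_some, mzj_ds_x_some, mzj_ds_x_some]

theorem mzj_ds_y_map (f : F →ₐ[R] K) (P : (W'⁄F).Point) :
    mzj_ds_y (W'⁄K) (Point.map f P) = f (mzj_ds_y (W'⁄F) P) := by
  rcases P with _ | ⟨x, y, h⟩
  · show mzj_ds_y (W'⁄K) (Point.map f 0) = f (mzj_ds_y (W'⁄F) 0)
    rw [Point.map_zero, mzj_ds_y_zero, mzj_ds_y_zero, _root_.map_zero]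
  · rw [Point.map_some, mzj_ds_y_some, mzj_ds_y_some]

theorem mzj_ds_b₂_map (f : F →ₐ[R] K) : (W'⁄K).b₂ = f (W'⁄F).b₂ := by
  simp only [WeierstrassCurve.baseChange, WeierstrassCurve.map_b₂]
  exact (f.commutes _).symm

theorem mzj_ds_b₄_map (f : F →ₐ[R] K) : (W'⁄K).b₄ = f (W'⁄F).b₄ := by
  simp only [WeierstrassCurve.baseChange, WeierstrassCurve.map_b₄]
  exact (f.commutes _).symm

theorem mzj_ds_b₆_map (f : F →ₐ[R] K) : (W'⁄K).b₆ = f (W'⁄F).b₆ := by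
  simp only [WeierstrassCurve.baseChange, WeierstrassCurve.map_b₆]
  exact (f.commutes _).symm

theorem mzj_ds_Δ_map (f : F →ₐ[R] K) : (W'⁄K).Δ = f (W'⁄F).Δ := by
  simp only [WeierstrassCurve.baseChange, WeierstrassCurve.map_Δ]
  exact (f.commutes _).symm

theorem mzj_ds_t_map (f : F →ₐ[R] K) (x : F) :
    mzj_ds_t (W'⁄K) (f x) = f (mzj_ds_t (W'⁄F) x) := by
  simp only [mzj_ds_t, mzj_ds_b₂_map W' f, mzj_ds_b₄_map W' f, map_add, map_mul, map_pow,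
    map_ofNat]

theorem mzj_ds_u_map (f : F →ₐ[R] K) (x : F) :
    mzj_ds_u (W'⁄K) (f x) = f (mzj_ds_u (W'⁄F) x) := by
  simp only [mzj_ds_u, mzj_ds_b₂_map W' f, mzj_ds_b₄_map W' f, mzj_ds_b₆_map W' f, map_add,
    map_mul, map_pow, map_ofNat]

theorem mzj_ds_X_map (f : F →ₐ[R] K) (p : ℕ) (Q P : (W'⁄F).Point) :
    mzj_ds_X (W'⁄K) p (Point.map f Q) (Point.map f P) = f (mzj_ds_X (W'⁄F) p Q P) := by
  unfold mzj_ds_X
  rw [map_add, map_sum, mzj_ds_x_map]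
  congr 1
  refine Finset.sum_congr rfl fun k _ => ?_
  rw [map_sub, ← mzj_ds_x_map, ← mzj_ds_x_map, map_add, map_nsmul]

theorem mzj_ds_Y_map (f : F →ₐ[R] K) (p : ℕ) (Q P : (W'⁄F).Point) :
    mzj_ds_Y (W'⁄K) p (Point.map f Q) (Point.map f P) = f (mzj_ds_Y (W'⁄F) p Q P) := by
  unfold mzj_ds_Y
  rw [map_add, map_sum, mzj_ds_y_map]
  congr 1
  refine Finset.sum_congr rfl fun k _ => ?_
  rw [map_sub, ← mzj_ds_y_map, ← mzj_ds_y_map, map_add, map_nsmul]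

theorem mzj_ds_v_map (f : F →ₐ[R] K) (p : ℕ) (Q : (W'⁄F).Point) :
    mzj_ds_v (W'⁄K) p (Point.map f Q) = f (mzj_ds_v (W'⁄F) p Q) := by
  unfold mzj_ds_v
  rw [map_sum]
  refine Finset.sum_congr rfl fun k _ => ?_
  rw [← mzj_ds_t_map, ← mzj_ds_x_map, map_nsmul]

theorem mzj_ds_w_map (f : F →ₐ[R] K) (p : ℕ) (Q : (W'⁄F).Point) :
    mzj_ds_w (W'⁄K) p (Point.map f Q) = f (mzj_ds_w (W'⁄F) p Q) := by
  unfold mzj_ds_w
  rw [map_sum]
  refine Finset.sum_congr rfl fun k _ => ?_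
  rw [map_add, map_mul, ← mzj_ds_t_map, ← mzj_ds_u_map, ← mzj_ds_x_map, map_nsmul]

end baseChange

end Fermat.Agent.MZ
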