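/-
[MZ-J]/[J-QUOT], analytic supplier, descent part: the complex input in the `mzj_ds_` vocabulary.

`mzj_ds_cshort`: for a SHORT Weierstrass curve `W` over `ℂ` (`a₁ = a₂ = a₃ = 0`, `Δ ≠ 0`) and a point
`Q` of odd prime order `p`, the curve `mzj_ds_cod W v w` has `Δ ≠ 0` and there is a surjective
Velu isogeny `φ : W(ℂ) →+ (mzj_ds_cod W v w)(ℂ)` (`mzj_ds_IsVelu W p Q φ`), with `v`, `w` the
half-system sums of `Ds/Defs.lean`.  This is helper7's `mzj_av_short` (`MZ/J/An/Short.lean`) with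
the sums converted by helper2's `mzj_pr_v_short`, `mzj_pr_w_short`, `mzj_pr_half`
(`MZ/J/An/Pair.lean`).

Owner: helper29.  Prefix `mzj_ds_`.
-/
import Fermat.Agent.MZ.J.Ds.Defs
import Fermat.Agent.MZ.J.An.Short
import Fermat.Agent.MZ.J.An.Pair

set_option autoImplicit false
set_option linter.unusedSectionVars false

namespace Fermat.Agent.MZ

open WeierstrassCurve WeierstrassCurve.Affine WeierstrassCurve.Affine.Point

section bridge

variable {F : Type*} [Field F] [DecidableEq F] (W : Affine F)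

theorem mzj_ds_x_eq_av (P : W.Point) : mzj_ds_x W P = mzj_av_px P := by
  cases P <;> rfl

theorem mzj_ds_y_eq_av (P : W.Point) : mzj_ds_y W P = mzj_av_py P := by
  cases P <;> rfl

theorem mzj_ds_x_eq_pr (P : W.Point) : mzj_ds_x W P = mzj_pr_X P := by
  cases P <;> rfl

theorem mzj_ds_t_eq_pr (x : F) : mzj_ds_t W x = mzj_pr_t W x := rfl

theorem mzj_ds_u_eq_pr (x : F) : mzj_ds_u W x = mzj_pr_u W x := rfl

/-- A nonzero point with given coordinates. -/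
theorem mzj_ds_some_of_coords {P : W.Point} (hP : P ≠ 0) {a b : F} (ha : mzj_ds_x W P = a)
    (hb : mzj_ds_y W P = b) : ∃ h : W.Nonsingular a b, P = Point.some a b h := by
  subst ha hb
  exact mzj_ds_eq_some W hP

theorem mzj_ds_y_neg_short (h1 : W.a₁ = 0) (h3 : W.a₃ = 0) (P : W.Point) :
    mzj_ds_y W (-P) = -mzj_ds_y W P := by
  rcases P with _ | ⟨x, y, h⟩
  · show mzj_ds_y W 0 = -mzj_ds_y W 0
    simp
  · rw [Point.neg_some, mzj_ds_y_some, mzj_ds_y_some, negY, h1, h3]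
    ring

/-- In short form `Σ_{0<k<2m+1} y(k • Q) = 0`. -/
theorem mzj_ds_sum_y_short (h1 : W.a₁ = 0) (h3 : W.a₃ = 0) (m : ℕ) (Q : W.Point)
    (hQ : (2 * m + 1) • Q = 0) :
    ∑ k ∈ Finset.Ico 1 (2 * m + 1), mzj_ds_y W (k • Q) = 0 := by
  rw [mzj_pr_half (fun R => mzj_ds_y W R) Q m hQ]
  refine Finset.sum_eq_zero fun k _ => ?_
  rw [mzj_ds_y_neg_short W h1 h3]
  ring

theorem mzj_ds_Icc_half (m : ℕ) : Finset.Icc 1 ((2 * m + 1) / 2) = Finset.Ico 1 (m + 1) := by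
  have : (2 * m + 1) / 2 = m := by omega
  rw [this, Finset.Ico_add_one_right_eq_Icc]

/-- In short form the full sum `Σ_{N∖0} (3x² + a₄)` is the half-system `v`. -/
theorem mzj_ds_v_short (h1 : W.a₁ = 0) (h2 : W.a₂ = 0) (h3 : W.a₃ = 0) (m : ℕ) (Q : W.Point)
    (hQ : (2 * m + 1) • Q = 0) :
    ∑ k ∈ Finset.Ico 1 (2 * m + 1), (3 * mzj_av_px (k • Q) ^ 2 + W.a₄) =
      mzj_ds_v W (2 * m + 1) Q := by
  unfold mzj_ds_v
  rw [mzj_ds_Icc_half]
  have := mzj_pr_v_short (W := W) h1 h2 h3 m Q hQ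
  simp only [← mzj_ds_x_eq_pr, ← mzj_ds_t_eq_pr] at this
  simp only [← mzj_ds_x_eq_av]
  exact this

/-- In short form the full sum `Σ_{N∖0} (5x³ + 3a₄x + 2a₆)` is the half-system `w`. -/
theorem mzj_ds_w_short (h1 : W.a₁ = 0) (h2 : W.a₂ = 0) (h3 : W.a₃ = 0) (m : ℕ) (Q : W.Point)
    (hQ : (2 * m + 1) • Q = 0) :
    ∑ k ∈ Finset.Ico 1 (2 * m + 1),
        (5 * mzj_av_px (k • Q) ^ 3 + 3 * W.a₄ * mzj_av_px (k • Q) + 2 * W.a₆) =
      mzj_ds_w W (2 * m + 1) Q := by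
  unfold mzj_ds_w
  rw [mzj_ds_Icc_half]
  have := mzj_pr_w_short (W := W) h1 h2 h3 m Q hQ
  simp only [← mzj_ds_x_eq_pr, ← mzj_ds_t_eq_pr, ← mzj_ds_u_eq_pr] at this
  simp only [← mzj_ds_x_eq_av]
  exact this

end bridge

section complex

/-- **The complex input**: Velu's isogeny for a short curve over `ℂ`, `mzj_ds_` vocabulary. -/
theorem mzj_ds_cshort (W : Affine ℂ) (h1 : W.a₁ = 0) (h2 : W.a₂ = 0) (h3 : W.a₃ = 0)
    (hΔ : W.Δ ≠ 0) {p : ℕ} (hp : p.Prime) (hp2 : p ≠ 2) (Q : W.Point) (hQ : addOrderOf Q = p) :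
    (mzj_ds_cod W (mzj_ds_v W p Q) (mzj_ds_w W p Q)).Δ ≠ 0 ∧
    ∃ φ : W.Point →+ (mzj_ds_cod W (mzj_ds_v W p Q) (mzj_ds_w W p Q)).Point,
      Function.Surjective φ ∧ mzj_ds_IsVelu W p Q φ := by
  obtain ⟨m, rfl⟩ : ∃ m, p = 2 * m + 1 := by
    rcases hp.eq_two_or_odd with h | h
    · exact absurd h hp2
    · exact ⟨p / 2, by omega⟩
  have hQ0 : (2 * m + 1) • Q = 0 := by rw [← hQ]; exact addOrderOf_nsmul_eq_zero Q
  obtain ⟨A, B, rfl⟩ : ∃ A B : ℂ, W = mzj_av_sw A B :=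
    ⟨W.a₄, W.a₆, by ext <;> simp [mzj_av_sw, h1, h2, h3]⟩
  have hAB : 4 * A ^ 3 + 27 * B ^ 2 ≠ 0 := by
    intro h0
    apply hΔ
    simp only [mzj_av_sw, WeierstrassCurve.Δ, WeierstrassCurve.b₂, WeierstrassCurve.b₄,
      WeierstrassCurve.b₆, WeierstrassCurve.b₈]
    linear_combination (-16 : ℂ) * h0
  obtain ⟨hΔ', φ, hsurj, hker, hform⟩ := mzj_av_short A B hAB hp Q hQ
  have hv : mzj_av_v A B (2 * m + 1) Q = mzj_ds_v (mzj_av_sw A B).toAffine (2 * m + 1) Q :=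
    mzj_ds_v_short (mzj_av_sw A B).toAffine rfl rfl rfl m Q hQ0
  have hw : mzj_av_w A B (2 * m + 1) Q = mzj_ds_w (mzj_av_sw A B).toAffine (2 * m + 1) Q :=
    mzj_ds_w_short (mzj_av_sw A B).toAffine rfl rfl rfl m Q hQ0
  have hcod : mzj_av_sw (A - 5 * mzj_av_v A B (2 * m + 1) Q) (B - 7 * mzj_av_w A B (2 * m + 1) Q) =
      mzj_ds_cod (mzj_av_sw A B).toAffine (mzj_ds_v (mzj_av_sw A B).toAffine (2 * m + 1) Q)
        (mzj_ds_w (mzj_av_sw A B).toAffine (2 * m + 1) Q) := by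
    rw [hv, hw]
    ext <;> simp [mzj_av_sw, mzj_ds_cod, WeierstrassCurve.b₂]
  constructor
  · rw [← hcod]
    intro h0
    apply hΔ'
    simp only [mzj_av_sw, WeierstrassCurve.Δ, WeierstrassCurve.b₂, WeierstrassCurve.b₄,
      WeierstrassCurve.b₆, WeierstrassCurve.b₈] at h0
    linear_combination (-1 / 16 : ℂ) * h0
  · obtain ⟨e, he⟩ := mzj_av_transport hcod
    refine ⟨e.toAddMonoidHom.comp φ, e.surjective.comp hsurj, ?_, ?_⟩
    · ext P
      exact ⟨fun h => (SetLike.ext_iff.1 hker P).1 (e.map_eq_zero_iff.1 h),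
        fun h => e.map_eq_zero_iff.2 ((SetLike.ext_iff.1 hker P).2 h)⟩
    · intro P hP
      obtain ⟨hx, hy⟩ := hform P hP
      have hne : (e.toAddMonoidHom.comp φ) P ≠ 0 := by
        intro h0
        apply hP
        rw [← hker]
        exact AddMonoidHom.mem_ker.mpr (e.map_eq_zero_iff.1 h0)
      apply mzj_ds_some_of_coords _ hne
      · show mzj_ds_x _ (e (φ P)) = _
        rw [mzj_ds_x_eq_av, (he (φ P)).1, hx]
        unfold mzj_ds_X
        simp only [mzj_ds_x_eq_av]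
      · show mzj_ds_y _ (e (φ P)) = _
        rw [mzj_ds_y_eq_av, (he (φ P)).2, hy]
        unfold mzj_ds_Y
        rw [Finset.sum_sub_distrib, mzj_ds_sum_y_short _ rfl rfl m Q hQ0, sub_zero]
        simp only [mzj_ds_y_eq_av]

end complex

end Fermat.Agent.MZ
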