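/-
[MZ-J]/[J-QUOT], analytic supplier, descent part (T2): a Velu isogeny over a big field `K` descends
along `Point.map f`, `f : F →ₐ[R] K`, to a Velu isogeny over `F`.

`mzj_ds_descend`: `E, E'` Weierstrass curves over `R`, `Q ∈ E(F)`; if
`φK : E(K) →+ E'(K)` is Velu's isogeny for `(E⁄K, p, f_* Q)` (kernel `⟨f_* Q⟩`, coordinates
`(X, Y)` off the kernel), then the map `φ : E(F) → E'(F)` DEFINED by `0` on `⟨Q⟩` and by Velu's
formulas `(X, Y)` off `⟨Q⟩` is a well defined group homomorphism, it is Velu's isogeny for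
`(E⁄F, p, Q)`, and `f_* ∘ φ = φK ∘ f_*`.

Owner: helper29.  Prefix `mzj_ds_`.
-/
import Fermat.Agent.MZ.J.Ds.Defs

set_option autoImplicit false
set_option linter.unusedSectionVars false

namespace Fermat.Agent.MZ

open WeierstrassCurve WeierstrassCurve.Affine WeierstrassCurve.Affine.Point

section descend

variable {R : Type*} [CommRing R] (E E' : WeierstrassCurve R)
  {F : Type*} [Field F] [DecidableEq F] {K : Type*} [Field K] [DecidableEq K]
  [Algebra R F] [Algebra R K] (f : F →ₐ[R] K)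

/-- `f_* P ∈ ⟨f_* Q⟩ ↔ P ∈ ⟨Q⟩`. -/
theorem mzj_ds_map_mem_zmultiples (Q P : (E⁄F).Point) :
    Point.map f P ∈ AddSubgroup.zmultiples (Point.map f Q) ↔ P ∈ AddSubgroup.zmultiples Q := by
  constructor
  · intro h
    obtain ⟨k, hk⟩ := AddSubgroup.mem_zmultiples_iff.mp h
    rw [← map_zsmul] at hk
    exact AddSubgroup.mem_zmultiples_iff.mpr ⟨k, Point.map_injective f hk⟩
  · intro h
    obtain ⟨k, hk⟩ := AddSubgroup.mem_zmultiples_iff.mp h
    refine AddSubgroup.mem_zmultiples_iff.mpr ⟨k, ?_⟩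
    rw [← map_zsmul, hk]

variable {E E'}

/-- Off `⟨Q⟩`, Velu's `(X, Y)` is a nonsingular point of `E'⁄F`. -/
theorem mzj_ds_descend_nonsingular (p : ℕ) (Q : (E⁄F).Point)
    (φK : (E⁄K).Point →+ (E'⁄K).Point)
    (hφK : mzj_ds_IsVelu (E⁄K) p (Point.map f Q) φK) (P : (E⁄F).Point)
    (hP : P ∉ AddSubgroup.zmultiples Q) :
    (E'⁄F).Nonsingular (mzj_ds_X (E⁄F) p Q P) (mzj_ds_Y (E⁄F) p Q P) := by
  have hP' : Point.map f P ∉ AddSubgroup.zmultiples (Point.map f Q) := fun h =>
    hP ((mzj_ds_map_mem_zmultiples E f Q P).mp h)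
  obtain ⟨h, -⟩ := hφK.coord _ hP'
  rw [mzj_ds_X_map, mzj_ds_Y_map] at h
  exact (Affine.baseChange_nonsingular E' f.injective _ _).mp h

open Classical in
/-- The descended map, defined by Velu's formulas. -/
noncomputable def mzj_ds_descendFun (p : ℕ) (Q : (E⁄F).Point)
    (φK : (E⁄K).Point →+ (E'⁄K).Point)
    (hφK : mzj_ds_IsVelu (E⁄K) p (Point.map f Q) φK) (P : (E⁄F).Point) : (E'⁄F).Point :=
  if hP : P ∈ AddSubgroup.zmultiples Q then 0
  else Point.some _ _ (mzj_ds_descend_nonsingular f p Q φK hφK P hP)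

theorem mzj_ds_descendFun_map (p : ℕ) (Q : (E⁄F).Point)
    (φK : (E⁄K).Point →+ (E'⁄K).Point)
    (hφK : mzj_ds_IsVelu (E⁄K) p (Point.map f Q) φK) (P : (E⁄F).Point) :
    Point.map f (mzj_ds_descendFun f p Q φK hφK P) = φK (Point.map f P) := by
  unfold mzj_ds_descendFun
  by_cases hP : P ∈ AddSubgroup.zmultiples Q
  · rw [dif_pos hP, Point.map_zero]
    have : Point.map f P ∈ φK.ker := by
      rw [hφK.ker]
      exact (mzj_ds_map_mem_zmultiples E f Q P).mpr hP
    exact (AddMonoidHom.mem_ker.mp this).symm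
  · rw [dif_neg hP, Point.map_some]
    have hP' : Point.map f P ∉ AddSubgroup.zmultiples (Point.map f Q) := fun h =>
      hP ((mzj_ds_map_mem_zmultiples E f Q P).mp h)
    obtain ⟨h, hφ⟩ := hφK.coord _ hP'
    rw [hφ]
    have hX := mzj_ds_X_map E f p Q P
    have hY := mzj_ds_Y_map E f p Q P
    congr 1
    · exact hX.symm
    · exact hY.symm

/-- **(T2)**: descent of a Velu isogeny along `Point.map f`. -/
theorem mzj_ds_descend (p : ℕ) (Q : (E⁄F).Point)
    (φK : (E⁄K).Point →+ (E'⁄K).Point)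
    (hφK : mzj_ds_IsVelu (E⁄K) p (Point.map f Q) φK) :
    ∃ φ : (E⁄F).Point →+ (E'⁄F).Point, mzj_ds_IsVelu (E⁄F) p Q φ ∧
      ∀ P, Point.map f (φ P) = φK (Point.map f P) := by
  have hmap := mzj_ds_descendFun_map f p Q φK hφK
  have hinj := Point.map_injective (W' := E') f
  refine ⟨⟨⟨mzj_ds_descendFun f p Q φK hφK, ?_⟩, ?_⟩, ⟨?_, ?_⟩, hmap⟩
  · apply hinj
    rw [hmap, Point.map_zero, Point.map_zero, _root_.map_zero]
  · intro P P'
    apply hinj
    rw [hmap, map_add, map_add, map_add, hmap, hmap]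
  · ext P
    rw [AddMonoidHom.mem_ker]
    change mzj_ds_descendFun f p Q φK hφK P = 0 ↔ _
    constructor
    · intro h
      have h1 : φK (Point.map f P) = 0 := by rw [← hmap, h, Point.map_zero]
      have h2 : Point.map f P ∈ φK.ker := AddMonoidHom.mem_ker.mpr h1
      rw [hφK.ker] at h2
      exact (mzj_ds_map_mem_zmultiples E f Q P).mp h2
    · intro h
      unfold mzj_ds_descendFun
      rw [dif_pos h]
  · intro P hP
    refine ⟨mzj_ds_descend_nonsingular f p Q φK hφK P hP, ?_⟩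
    change mzj_ds_descendFun f p Q φK hφK P = _
    unfold mzj_ds_descendFun
    rw [dif_neg hP]

end descend

end Fermat.Agent.MZ
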