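/-
[MZ-J]/[J-QUOT], analytic supplier, descent part (E): Galois descent.

* `mzj_ds_sum_gen`     : `Σ_{0<k<p} g (k • Q)` only depends on the subgroup `⟨Q⟩` (`Q` of prime order `p`);
* `mzj_ds_X_gen/_Y_gen`: hence Velu's `X`, `Y` only depend on `⟨Q⟩`;
* `mzj_ds_X_smul/_Y_smul` : `σ (X_Q P) = X_Q (σ • P)` if `σ • Q ∈ ⟨Q⟩`;
* `mzj_ds_equivariant` : a Velu isogeny `φ` for a Galois-stable `⟨Q⟩` satisfies `φ (σ • P) = σ • φ P`;
* `mzj_ds_sum_fixed`   : sums over the set `S` of abscissae of a stable subgroup of functions commuting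
                         with `σ` are fixed by `σ` (rationality of `v`, `w`).

Owner: helper29.  Prefix `mzj_ds_`.
-/
import Fermat.Agent.MZ.J.Ds.Defs

set_option autoImplicit false
set_option linter.unusedSectionVars false

namespace Fermat.Agent.MZ

open WeierstrassCurve WeierstrassCurve.Affine WeierstrassCurve.Affine.Point

section group

variable {G M : Type*} [AddGroup G] [AddCommMonoid M]

theorem mzj_ds_nsmul_ne_zero {p : ℕ} {Q : G} (hQ : addOrderOf Q = p) {k : ℕ} (hk0 : 0 < k)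
    (hkp : k < p) : k • Q ≠ 0 := by
  intro h
  have := addOrderOf_dvd_of_nsmul_eq_zero h
  rw [hQ] at this
  exact absurd (Nat.le_of_dvd hk0 this) (by omega)

open Classical in
theorem mzj_ds_mem_image_nsmul {p : ℕ} (hp : 0 < p) {Q : G} (hQ : addOrderOf Q = p) (R : G) :
    R ∈ (Finset.Ico 1 p).image (fun k : ℕ => k • Q) ↔ R ∈ AddSubgroup.zmultiples Q ∧ R ≠ 0 := by
  constructor
  · intro h
    obtain ⟨k, hk, rfl⟩ := Finset.mem_image.mp h
    rw [Finset.mem_Ico] at hk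
    exact ⟨AddSubgroup.nsmul_mem _ (AddSubgroup.mem_zmultiples Q) k,
      mzj_ds_nsmul_ne_zero hQ (by omega) hk.2⟩
  · rintro ⟨hmem, hne⟩
    obtain ⟨j, hj⟩ := AddSubgroup.mem_zmultiples_iff.mp hmem
    have hpos : (0 : ℤ) < (p : ℤ) := by exact_mod_cast hp
    set r : ℤ := j % (p : ℤ) with hr
    have hr0 : 0 ≤ r := Int.emod_nonneg _ hpos.ne'
    have hr1 : r < (p : ℤ) := Int.emod_lt_of_pos _ hpos
    have hrj : r • Q = j • Q := by
      rw [hr, ← hQ]; exact mod_addOrderOf_zsmul Q j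
    obtain ⟨n, hn⟩ := Int.eq_ofNat_of_zero_le hr0
    have hnQ : n • Q = R := by
      rw [← hj, ← hrj, hn, natCast_zsmul]
    have hn0 : n ≠ 0 := by
      rintro rfl
      rw [zero_smul] at hnQ
      exact hne hnQ.symm
    have hn1 : n < p := by
      have : (n : ℤ) < (p : ℤ) := by rw [← hn]; exact hr1
      exact_mod_cast this
    exact Finset.mem_image.mpr ⟨n, Finset.mem_Ico.mpr ⟨by omega, hn1⟩, hnQ⟩

theorem mzj_ds_zmultiples_eq {p : ℕ} (hp : 0 < p) {Q Q' : G} (hQ : addOrderOf Q = p)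
    (hQ' : addOrderOf Q' = p) (h : Q' ∈ AddSubgroup.zmultiples Q) :
    AddSubgroup.zmultiples Q' = AddSubgroup.zmultiples Q := by
  have : Finite (AddSubgroup.zmultiples Q) :=
    Nat.finite_of_card_ne_zero (by rw [Nat.card_zmultiples, hQ]; exact hp.ne')
  apply AddSubgroup.eq_of_le_of_card_ge
  · exact AddSubgroup.zmultiples_le_of_mem h
  · rw [Nat.card_zmultiples, Nat.card_zmultiples, hQ, hQ']

/-- `Σ_{0<k<p} g (k • Q)` only depends on the subgroup generated by `Q`. -/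
theorem mzj_ds_sum_gen {p : ℕ} (hp : 0 < p) {Q Q' : G} (hQ : addOrderOf Q = p)
    (hQ' : addOrderOf Q' = p) (h : Q' ∈ AddSubgroup.zmultiples Q) (g : G → M) :
    ∑ k ∈ Finset.Ico 1 p, g (k • Q') = ∑ k ∈ Finset.Ico 1 p, g (k • Q) := by
  classical
  have key : ∀ {Q₀ : G}, addOrderOf Q₀ = p →
      ∑ k ∈ Finset.Ico 1 p, g (k • Q₀) =
        ∑ R ∈ (Finset.Ico 1 p).image (fun k : ℕ => k • Q₀), g R := by
    intro Q₀ hQ₀
    refine (Finset.sum_image ?_).symm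
    intro a ha b hb hab
    rw [Finset.coe_Ico, Set.mem_Ico] at ha hb
    exact nsmul_injOn_Iio_addOrderOf (x := Q₀) (by rw [hQ₀]; exact ha.2) (by rw [hQ₀]; exact hb.2)
      hab
  rw [key hQ, key hQ']
  congr 1
  ext R
  rw [mzj_ds_mem_image_nsmul hp hQ, mzj_ds_mem_image_nsmul hp hQ',
    mzj_ds_zmultiples_eq hp hQ hQ' h]

end group

section generic

variable {F : Type*} [Field F] [DecidableEq F] (W : Affine F)

theorem mzj_ds_X_gen {p : ℕ} (hp : 0 < p) {Q Q' : W.Point} (hQ : addOrderOf Q = p)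
    (hQ' : addOrderOf Q' = p) (h : Q' ∈ AddSubgroup.zmultiples Q) (P : W.Point) :
    mzj_ds_X W p Q' P = mzj_ds_X W p Q P := by
  unfold mzj_ds_X
  rw [mzj_ds_sum_gen hp hQ hQ' h (fun R => mzj_ds_x W (P + R) - mzj_ds_x W R)]

theorem mzj_ds_Y_gen {p : ℕ} (hp : 0 < p) {Q Q' : W.Point} (hQ : addOrderOf Q = p)
    (hQ' : addOrderOf Q' = p) (h : Q' ∈ AddSubgroup.zmultiples Q) (P : W.Point) :
    mzj_ds_Y W p Q' P = mzj_ds_Y W p Q P := by
  unfold mzj_ds_Y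
  rw [mzj_ds_sum_gen hp hQ hQ' h (fun R => mzj_ds_y W (P + R) - mzj_ds_y W R)]

end generic

section galois

variable {R : Type*} [CommRing R] (E E' : WeierstrassCurve R)
  {F : Type*} [Field F] [DecidableEq F] [Algebra R F]

theorem mzj_ds_smul_def (σ : F ≃ₐ[R] F) (P : (E⁄F).Point) :
    σ • P = Point.map σ.toAlgHom P := rfl

theorem mzj_ds_smul_some (σ : F ≃ₐ[R] F) {x y : F} (h : (E⁄F).Nonsingular x y) :
    σ • (Point.some x y h : (E⁄F).Point) =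
      Point.some (σ x) (σ y) ((Affine.baseChange_nonsingular E σ.toAlgHom.injective x y).mpr h) :=
  rfl

theorem mzj_ds_addOrderOf_smul (σ : F ≃ₐ[R] F) (P : (E⁄F).Point) :
    addOrderOf (σ • P) = addOrderOf P :=
  addOrderOf_injective (Point.map (W' := E) σ.toAlgHom) (Point.map_injective σ.toAlgHom) P

/-- A subgroup `⟨Q⟩` with `σ • Q ∈ ⟨Q⟩` is `σ`-stable. -/
theorem mzj_ds_smul_mem (σ : F ≃ₐ[R] F) {Q : (E⁄F).Point}
    (hσ : σ • Q ∈ AddSubgroup.zmultiples Q) {P : (E⁄F).Point}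
    (hP : P ∈ AddSubgroup.zmultiples Q) : σ • P ∈ AddSubgroup.zmultiples Q := by
  obtain ⟨k, rfl⟩ := AddSubgroup.mem_zmultiples_iff.mp hP
  rw [algEquiv_smul_zsmul]
  exact AddSubgroup.zsmul_mem _ hσ k

theorem mzj_ds_X_smul {p : ℕ} (hp : 0 < p) (σ : F ≃ₐ[R] F) {Q : (E⁄F).Point}
    (hQ : addOrderOf Q = p) (hσ : σ • Q ∈ AddSubgroup.zmultiples Q) (P : (E⁄F).Point) :
    mzj_ds_X (E⁄F) p Q (σ • P) = σ (mzj_ds_X (E⁄F) p Q P) := by
  have h1 := mzj_ds_X_map E σ.toAlgHom p Q P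
  rw [← mzj_ds_smul_def, ← mzj_ds_smul_def] at h1
  rw [← mzj_ds_X_gen (E⁄F) hp hQ ((mzj_ds_addOrderOf_smul E σ Q).trans hQ) hσ]
  exact h1

theorem mzj_ds_Y_smul {p : ℕ} (hp : 0 < p) (σ : F ≃ₐ[R] F) {Q : (E⁄F).Point}
    (hQ : addOrderOf Q = p) (hσ : σ • Q ∈ AddSubgroup.zmultiples Q) (P : (E⁄F).Point) :
    mzj_ds_Y (E⁄F) p Q (σ • P) = σ (mzj_ds_Y (E⁄F) p Q P) := by
  have h1 := mzj_ds_Y_map E σ.toAlgHom p Q P
  rw [← mzj_ds_smul_def, ← mzj_ds_smul_def] at h1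
  rw [← mzj_ds_Y_gen (E⁄F) hp hQ ((mzj_ds_addOrderOf_smul E σ Q).trans hQ) hσ]
  exact h1

variable {E E'}

/-- **Galois-equivariance** of a Velu isogeny with Galois-stable kernel `⟨Q⟩`. -/
theorem mzj_ds_equivariant {p : ℕ} (hp : 0 < p) {Q : (E⁄F).Point} (hQ : addOrderOf Q = p)
    (hst : ∀ σ : F ≃ₐ[R] F, σ • Q ∈ AddSubgroup.zmultiples Q)
    (φ : (E⁄F).Point →+ (E'⁄F).Point) (hφ : mzj_ds_IsVelu (E⁄F) p Q φ)
    (σ : F ≃ₐ[R] F) (P : (E⁄F).Point) : φ (σ • P) = σ • φ P := by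
  by_cases hP : P ∈ AddSubgroup.zmultiples Q
  · have h1 : σ • P ∈ φ.ker := by
      rw [hφ.ker]; exact mzj_ds_smul_mem E σ (hst σ) hP
    have h2 : P ∈ φ.ker := by rw [hφ.ker]; exact hP
    rw [AddMonoidHom.mem_ker.mp h1, AddMonoidHom.mem_ker.mp h2, smul_zero]
  · have hP' : σ • P ∉ AddSubgroup.zmultiples Q := by
      intro h
      apply hP
      have := mzj_ds_smul_mem E σ⁻¹ (hst σ⁻¹) h
      rwa [inv_smul_smul] at this
    obtain ⟨h1, e1⟩ := hφ.coord P hP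
    obtain ⟨h2, e2⟩ := hφ.coord (σ • P) hP'
    rw [e1, e2, mzj_ds_smul_some]
    have hX := mzj_ds_X_smul E hp σ hQ (hst σ) P
    have hY := mzj_ds_Y_smul E hp σ hQ (hst σ) P
    congr 1

/-- Sums over the abscissae of a `σ`-stable subgroup of `σ`-equivariant functions are `σ`-fixed. -/
theorem mzj_ds_sum_fixed (S : Finset F) (N : AddSubgroup (E⁄F).Point)
    (hS : ∀ ξ : F, ξ ∈ S ↔ ∃ (y : F) (h : (E⁄F).Nonsingular ξ y), Point.some ξ y h ∈ N)
    (σ : F ≃ₐ[R] F) (hσ : ∀ P ∈ N, σ • P ∈ N) (g : F → F) (hg : ∀ ξ, g (σ ξ) = σ (g ξ)) :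
    σ (∑ ξ ∈ S, g ξ) = ∑ ξ ∈ S, g ξ := by
  have himg : S.image σ = S := by
    apply Finset.eq_of_subset_of_card_le
    · intro η hη
      obtain ⟨ξ, hξ, rfl⟩ := Finset.mem_image.mp hη
      obtain ⟨y, h, hmem⟩ := (hS ξ).mp hξ
      have := hσ _ hmem
      rw [mzj_ds_smul_some] at this
      exact (hS (σ ξ)).mpr ⟨σ y, _, this⟩
    · rw [Finset.card_image_of_injective _ σ.injective]
  rw [map_sum]
  calc ∑ ξ ∈ S, σ (g ξ) = ∑ ξ ∈ S, g (σ ξ) := Finset.sum_congr rfl fun ξ _ => (hg ξ).symm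
    _ = ∑ η ∈ S.image σ, g η := (Finset.sum_image fun a _ b _ h => σ.injective h).symm
    _ = ∑ ξ ∈ S, g ξ := by rw [himg]

end galois

end Fermat.Agent.MZ
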