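/-
[MZ-J]/[J-QUOT]: surjectivity of a Velu isogeny on the points over an algebraically closed field,
as a route-independent algebraic lemma (Mathlib only).

`mzj_sj_main`: if `φ : W(K) →+ W'(K)` (`K` algebraically closed, `W.Δ ≠ 0`) has the `X`-coordinate
`x + Σ_{ξ ∈ Sx} (t ξ/(x - ξ) + u ξ/(x - ξ)²)` at every point `(x, y)` with `x ∉ Sx`, and `u ξ ≠ 0` on
`Sx`, then `φ` is surjective.

Owner: helper29.  Prefix `mzj_sj_`.
-/
import Mathlib

set_option autoImplicit false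
set_option linter.unusedSectionVars false

namespace Fermat.Agent.MZ

open WeierstrassCurve WeierstrassCurve.Affine WeierstrassCurve.Affine.Point Polynomial

section poly

variable {K : Type*} [Field K] [DecidableEq K]

/-- `D = ∏_{ξ ∈ Sx} (X - ξ)²`. -/
noncomputable def mzj_sj_D (Sx : Finset K) : K[X] := ∏ ξ ∈ Sx, (X - C ξ) ^ 2

/-- The numerator of the `ξ`-term: `(t_ξ (X - ξ) + u_ξ) ∏_{η ≠ ξ} (X - η)²`. -/
noncomputable def mzj_sj_N (Sx : Finset K) (t u : K → K) (ξ : K) : K[X] :=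
  (C (t ξ) * (X - C ξ) + C (u ξ)) * mzj_sj_D (Sx.erase ξ)

/-- `G = (X - x') D + Σ_ξ N_ξ`: its roots are the `x` with `X(x) = x'`. -/
noncomputable def mzj_sj_G (Sx : Finset K) (t u : K → K) (x' : K) : K[X] :=
  (X - C x') * mzj_sj_D Sx + ∑ ξ ∈ Sx, mzj_sj_N Sx t u ξ

theorem mzj_sj_D_monic (Sx : Finset K) : (mzj_sj_D Sx).Monic :=
  monic_prod_of_monic _ _ fun ξ _ => (monic_X_sub_C ξ).pow 2

theorem mzj_sj_D_natDegree (Sx : Finset K) : (mzj_sj_D Sx).natDegree = 2 * Sx.card := by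
  unfold mzj_sj_D
  rw [natDegree_prod_of_monic _ _ fun ξ _ => (monic_X_sub_C ξ).pow 2]
  simp only [(monic_X_sub_C _).natDegree_pow, natDegree_X_sub_C, mul_one, Finset.sum_const,
    smul_eq_mul]
  ring

theorem mzj_sj_D_eval (Sx : Finset K) (x : K) :
    (mzj_sj_D Sx).eval x = ∏ ξ ∈ Sx, (x - ξ) ^ 2 := by
  unfold mzj_sj_D
  rw [eval_prod]
  refine Finset.prod_congr rfl fun ξ _ => ?_
  simp

theorem mzj_sj_D_eval_ne_zero (Sx : Finset K) {x : K} (hx : x ∉ Sx) :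
    (mzj_sj_D Sx).eval x ≠ 0 := by
  rw [mzj_sj_D_eval]
  refine Finset.prod_ne_zero_iff.mpr fun ξ hξ => pow_ne_zero 2 (sub_ne_zero.mpr ?_)
  rintro rfl
  exact hx hξ

theorem mzj_sj_D_eval_mem (Sx : Finset K) {x : K} (hx : x ∈ Sx) :
    (mzj_sj_D Sx).eval x = 0 := by
  rw [mzj_sj_D_eval]
  exact Finset.prod_eq_zero hx (by simp)

theorem mzj_sj_D_erase (Sx : Finset K) {ξ : K} (hξ : ξ ∈ Sx) (x : K) :
    (x - ξ) ^ 2 * (mzj_sj_D (Sx.erase ξ)).eval x = (mzj_sj_D Sx).eval x := by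
  rw [mzj_sj_D_eval, mzj_sj_D_eval]
  exact Finset.mul_prod_erase Sx (fun η => (x - η) ^ 2) hξ

theorem mzj_sj_N_natDegree_le (Sx : Finset K) (t u : K → K) {ξ : K} (hξ : ξ ∈ Sx) :
    (mzj_sj_N Sx t u ξ).natDegree ≤ 2 * Sx.card - 1 := by
  unfold mzj_sj_N
  refine (natDegree_mul_le).trans ?_
  rw [mzj_sj_D_natDegree, Finset.card_erase_of_mem hξ]
  have h1 : (C (t ξ) * (X - C ξ) + C (u ξ)).natDegree ≤ 1 := by
    refine (natDegree_add_le _ _).trans ?_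
    rw [natDegree_C]
    refine max_le ?_ (Nat.zero_le _)
    refine (natDegree_C_mul_le _ _).trans ?_
    rw [natDegree_X_sub_C]
  have h2 : 0 < Sx.card := Finset.card_pos.mpr ⟨ξ, hξ⟩
  omega

theorem mzj_sj_G_degree (Sx : Finset K) (t u : K → K) (x' : K) :
    (mzj_sj_G Sx t u x').degree ≠ 0 := by
  have hp : ((X - C x') * mzj_sj_D Sx).Monic := (monic_X_sub_C x').mul (mzj_sj_D_monic Sx)
  have hpd : ((X - C x') * mzj_sj_D Sx).natDegree = 2 * Sx.card + 1 := by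
    rw [(monic_X_sub_C x').natDegree_mul (mzj_sj_D_monic Sx), natDegree_X_sub_C,
      mzj_sj_D_natDegree]
    ring
  have hq : (∑ ξ ∈ Sx, mzj_sj_N Sx t u ξ).natDegree ≤ 2 * Sx.card - 1 :=
    natDegree_sum_le_of_forall_le _ _ fun ξ hξ => mzj_sj_N_natDegree_le Sx t u hξ
  have hlt : (∑ ξ ∈ Sx, mzj_sj_N Sx t u ξ).degree < ((X - C x') * mzj_sj_D Sx).degree := by
    by_cases h0 : (∑ ξ ∈ Sx, mzj_sj_N Sx t u ξ) = 0
    · rw [h0, degree_zero]
      exact bot_lt_iff_ne_bot.mpr (degree_ne_bot.mpr hp.ne_zero)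
    · apply degree_lt_degree
      omega
  unfold mzj_sj_G
  rw [degree_add_eq_left_of_degree_lt hlt, degree_eq_natDegree hp.ne_zero, hpd]
  exact_mod_cast (Nat.succ_ne_zero (2 * Sx.card))

theorem mzj_sj_G_eval_mem (Sx : Finset K) (t u : K → K) (x' : K) {ξ₀ : K} (hξ₀ : ξ₀ ∈ Sx) :
    (mzj_sj_G Sx t u x').eval ξ₀ = u ξ₀ * (mzj_sj_D (Sx.erase ξ₀)).eval ξ₀ := by
  unfold mzj_sj_G
  rw [eval_add, eval_mul, mzj_sj_D_eval_mem Sx hξ₀, mul_zero, zero_add, eval_finsetSum,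
    Finset.sum_eq_single ξ₀]
  · unfold mzj_sj_N
    simp
  · intro ξ hξ hne
    unfold mzj_sj_N
    rw [eval_mul, mzj_sj_D_eval_mem _ (Finset.mem_erase.mpr ⟨hne.symm, hξ₀⟩), mul_zero]
  · intro h
    exact absurd hξ₀ h

theorem mzj_sj_G_eval (Sx : Finset K) (t u : K → K) (x' : K) {x : K} (hx : x ∉ Sx) :
    (mzj_sj_G Sx t u x').eval x =
      (mzj_sj_D Sx).eval x * (x + ∑ ξ ∈ Sx, (t ξ / (x - ξ) + u ξ / (x - ξ) ^ 2) - x') := by
  unfold mzj_sj_G
  rw [eval_add, eval_mul, eval_finsetSum]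
  have hterm : ∀ ξ ∈ Sx, (mzj_sj_N Sx t u ξ).eval x =
      (mzj_sj_D Sx).eval x * (t ξ / (x - ξ) + u ξ / (x - ξ) ^ 2) := by
    intro ξ hξ
    have hne : x - ξ ≠ 0 := sub_ne_zero.mpr (by rintro rfl; exact hx hξ)
    rw [← mzj_sj_D_erase Sx hξ x]
    unfold mzj_sj_N
    simp only [eval_mul, eval_add, eval_C, eval_sub, eval_X]
    field_simp
  rw [Finset.sum_congr rfl hterm, ← Finset.mul_sum]
  simp only [eval_sub, eval_X, eval_C]
  ring

end poly

section main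

variable {K : Type*} [Field K] [DecidableEq K] [IsAlgClosed K]

/-- Over an algebraically closed field every `x` is the `x`-coordinate of a point of the curve. -/
theorem mzj_sj_exists_y (W : Affine K) (x : K) : ∃ y : K, W.Equation x y := by
  have hdeg : (C (1 : K) * X ^ 2 + C (W.a₁ * x + W.a₃) * X +
      C (-(x ^ 3 + W.a₂ * x ^ 2 + W.a₄ * x + W.a₆))).degree ≠ 0 := by
    rw [degree_quadratic one_ne_zero]
    decide
  obtain ⟨y, hy⟩ := IsAlgClosed.exists_root _ hdeg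
  refine ⟨y, ?_⟩
  rw [Affine.equation_iff]
  simp only [IsRoot.def, eval_add, eval_mul, eval_C, eval_pow, eval_X] at hy
  linear_combination hy

/-- **Surjectivity of a Velu isogeny** on the points over an algebraically closed field. -/
theorem mzj_sj_main (W W' : Affine K) (hΔ : W.Δ ≠ 0) (φ : W.Point →+ W'.Point)
    (Sx : Finset K) (t u : K → K) (hu : ∀ ξ ∈ Sx, u ξ ≠ 0)
    (hX : ∀ (x y : K) (h : W.Nonsingular x y), x ∉ Sx →
      ∃ (Y : K) (h' : W'.Nonsingular (x + ∑ ξ ∈ Sx, (t ξ / (x - ξ) + u ξ / (x - ξ) ^ 2)) Y),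
        φ (Point.some x y h) = Point.some _ Y h') :
    Function.Surjective φ := by
  rintro (_ | ⟨x', y', h'⟩)
  · exact ⟨0, map_zero φ⟩
  obtain ⟨x, hroot⟩ := IsAlgClosed.exists_root _ (mzj_sj_G_degree Sx t u x')
  have hxS : x ∉ Sx := by
    intro hx
    rw [IsRoot.def, mzj_sj_G_eval_mem Sx t u x' hx] at hroot
    rcases mul_eq_zero.mp hroot with h0 | h0
    · exact hu x hx h0
    · exact mzj_sj_D_eval_ne_zero _ (Finset.notMem_erase x Sx) h0
  have hXx : x + ∑ ξ ∈ Sx, (t ξ / (x - ξ) + u ξ / (x - ξ) ^ 2) = x' := by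
    rw [IsRoot.def, mzj_sj_G_eval Sx t u x' hxS] at hroot
    rcases mul_eq_zero.mp hroot with h0 | h0
    · exact absurd h0 (mzj_sj_D_eval_ne_zero Sx hxS)
    · exact sub_eq_zero.mp h0
  obtain ⟨y, hy⟩ := mzj_sj_exists_y W x
  have hns : W.Nonsingular x y := (W.equation_iff_nonsingular_of_Δ_ne_zero hΔ).mp hy
  obtain ⟨Y, hY, hφ⟩ := hX x y hns hxS
  rcases Y_eq_of_X_eq hY.1 h'.1 hXx with hYy | hYy
  · refine ⟨Point.some x y hns, ?_⟩
    rw [hφ]
    subst hXx hYy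
    rfl
  · refine ⟨-Point.some x y hns, ?_⟩
    rw [map_neg, hφ, neg_some]
    subst hXx
    have : W'.negY (x + ∑ ξ ∈ Sx, (t ξ / (x - ξ) + u ξ / (x - ξ) ^ 2)) Y = y' := by
      rw [hYy, negY_negY]
    subst this
    rfl

end main

section supplier

variable {F : Type*} [Field F] [DecidableEq F]

/-- At a point which is not `2`-torsion, `2y + a₁x + a₃ ≠ 0`. -/
theorem mzj_sj_psi2_ne_zero (W : Affine F) {x y : F} (h : W.Nonsingular x y)
    (h2 : (2 : ℕ) • (Point.some x y h : W.Point) ≠ 0) : 2 * y + W.a₁ * x + W.a₃ ≠ 0 := by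
  intro h0
  apply h2
  have hy : y = W.negY x y := by
    rw [negY]
    linear_combination h0
  rw [two_nsmul]
  exact Point.add_of_Y_eq rfl hy

/-- On the curve, `u(x) = 4x³ + b₂x² + 2b₄x + b₆ = (2y + a₁x + a₃)²`. -/
theorem mzj_sj_u_eq (W : Affine F) {x y : F} (h : W.Equation x y) :
    4 * x ^ 3 + W.b₂ * x ^ 2 + 2 * W.b₄ * x + W.b₆ = (2 * y + W.a₁ * x + W.a₃) ^ 2 := by
  rw [Affine.equation_iff] at h
  simp only [WeierstrassCurve.b₂, WeierstrassCurve.b₄, WeierstrassCurve.b₆]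
  linear_combination (-4 : F) * h

/-- `u(x_P) ≠ 0` at a point `P` which is not `2`-torsion. -/
theorem mzj_sj_u_ne_zero (W : Affine F) {x y : F} (h : W.Nonsingular x y)
    (h2 : (2 : ℕ) • (Point.some x y h : W.Point) ≠ 0) :
    4 * x ^ 3 + W.b₂ * x ^ 2 + 2 * W.b₄ * x + W.b₆ ≠ 0 := by
  rw [mzj_sj_u_eq W h.1]
  exact pow_ne_zero 2 (mzj_sj_psi2_ne_zero W h h2)

/-- A point of odd order is not `2`-torsion. -/
theorem mzj_sj_two_nsmul_ne_zero {G : Type*} [AddGroup G] {P : G} {p : ℕ} (hp : Odd p)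
    (hP : addOrderOf P = p) {k : ℕ} (hk0 : 0 < k) (hkp : k < p) : (2 : ℕ) • (k • P) ≠ 0 := by
  intro h
  rw [← mul_nsmul'] at h
  have hdvd : p ∣ 2 * k := hP ▸ addOrderOf_dvd_of_nsmul_eq_zero h
  have hcop : Nat.Coprime p 2 := Nat.Coprime.symm (Nat.coprime_two_left.mpr hp)
  have := hcop.dvd_of_dvd_mul_left hdvd
  exact absurd (Nat.le_of_dvd hk0 this) (by omega)

end supplier

end Fermat.Agent.MZ
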