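/-
[MZ-J]/[J-QUOT], analytic supplier, descent part, cell (T1): Velu's data and admissible changes of
variables with `u = 1`.

For a Weierstrass curve `W` over a field `F` with `Δ ≠ 0`, a change of variables `C` with
`C.u = 1` and `ψ : W(F) ≃+ (C • W)(F)` the induced isomorphism (`mzj_vh_equiv`, built on
`lrvc_map`), and `Q` of order `p`:

* `mzj_vh_x`, `mzj_vh_y`   : `x(ψR) = x_R - r`, `y(ψR) = y_R - s (x_R - r) - t` for `R ≠ 0`;
* `mzj_vh_X`, `mzj_vh_Y`   : `X_{ψQ}(ψP) = X_Q(P) - r`, `Y_{ψQ}(ψP) = Y_Q(P) - s (X_Q(P) - r) - t`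
                             off `⟨Q⟩` (Velu's coordinates of `Ds/Defs.lean`);
* `mzj_vh_t`, `mzj_vh_u`   : `t'(ξ - r) = t(ξ)`, `u'(ξ - r) = u(ξ)`;
* `mzj_vh_v`, `mzj_vh_w`   : `v(ψQ) = v(Q)`, `w(ψQ) = w(Q) - r v(Q)`;
* `mzj_vh_cod`             : `C • cod W v w = cod (C • W) v (w - r v)`;
* `mzj_vh_transfer_isVelu` : a Velu isogeny for `(C • W, p, ψQ)` gives one for `(W, p, Q)`
                             (codomain nonsingular, kernel, coordinates, surjectivity);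
* `mzj_vh_Stmt`, `mzj_vh_transfer` : the same as a transfer of the packaged statement;
* `mzj_vh_C`, `mzj_vh_of_short` : in characteristic `≠ 2, 3` the explicit `u = 1` change to short
                             form `⟨0,0,0,A,B⟩`; Velu's statement for all short curves gives it for
                             all curves.

Owner: helper7.  Prefix `mzj_vh_`.
-/
import Mathlib
import Fermat.Agent.MZ.J.Ds.Defs
import Fermat.Agent.LR.NonEis.VarChange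

set_option autoImplicit false
set_option linter.unusedSectionVars false

namespace Fermat.Agent.MZ

open WeierstrassCurve WeierstrassCurve.Affine WeierstrassCurve.Affine.Point
open Fermat.Agent.LR

section generic

variable {F : Type*} [Field F] [DecidableEq F] (C : VariableChange F) (W : Affine F)

/-- The isomorphism on points induced by a change of variables, as an additive equivalence. -/
noncomputable def mzj_vh_equiv {W' : Affine F} (hW : C • W = W') (hΔ : W.Δ ≠ 0) :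
    W.Point ≃+ W'.Point :=
  AddEquiv.ofBijective
    ({ toFun := lrvc_map C W hW hΔ
       map_zero' := lrvc_map_zero C W hW hΔ
       map_add' := lrvc_map_add C W hW hΔ } : W.Point →+ W'.Point)
    ⟨lrvc_map_injective C W hW hΔ, lrvc_map_surjective C W hW hΔ⟩

theorem mzj_vh_equiv_apply {W' : Affine F} (hW : C • W = W') (hΔ : W.Δ ≠ 0) (P : W.Point) :
    mzj_vh_equiv C W hW hΔ P = lrvc_map C W hW hΔ P := rfl

theorem mzj_vh_equiv_some {W' : Affine F} (hW : C • W = W') (hΔ : W.Δ ≠ 0) {x y : F}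
    (h : W.Nonsingular x y) :
    mzj_vh_equiv C W hW hΔ (.some x y h) =
      .some (lrvc_X C x) (lrvc_Y C x y) (hW ▸ lrvc_nonsingular C W hΔ h) := rfl

theorem mzj_vh_inv_one (hu : C.u = 1) : (↑C.u⁻¹ : F) = 1 := by
  rw [hu, inv_one, Units.val_one]

theorem mzj_vh_X_one (hu : C.u = 1) (x : F) : lrvc_X C x = x - C.r := by
  rw [lrvc_X, mzj_vh_inv_one C hu]; ring

theorem mzj_vh_Y_one (hu : C.u = 1) (x y : F) : lrvc_Y C x y = y - C.s * (x - C.r) - C.t := by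
  rw [lrvc_Y, mzj_vh_inv_one C hu]; ring

/-- `x(ψR) = x_R - r`. -/
theorem mzj_vh_x {W' : Affine F} (hW : C • W = W') (hΔ : W.Δ ≠ 0) (hu : C.u = 1) {R : W.Point}
    (hR : R ≠ 0) :
    mzj_ds_x W' (mzj_vh_equiv C W hW hΔ R) = mzj_ds_x W R - C.r := by
  rcases R with _ | ⟨x, y, h⟩
  · exact absurd rfl hR
  · rw [mzj_vh_equiv_some, mzj_ds_x_some, mzj_ds_x_some, mzj_vh_X_one C hu]

/-- `y(ψR) = y_R - s (x_R - r) - t`. -/
theorem mzj_vh_y {W' : Affine F} (hW : C • W = W') (hΔ : W.Δ ≠ 0) (hu : C.u = 1) {R : W.Point}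
    (hR : R ≠ 0) :
    mzj_ds_y W' (mzj_vh_equiv C W hW hΔ R) =
      mzj_ds_y W R - C.s * (mzj_ds_x W R - C.r) - C.t := by
  rcases R with _ | ⟨x, y, h⟩
  · exact absurd rfl hR
  · rw [mzj_vh_equiv_some, mzj_ds_y_some, mzj_ds_y_some, mzj_ds_x_some, mzj_vh_Y_one C hu]

/-- nonzero multiples of a point of order `p`. -/
theorem mzj_vh_nsmul_ne_zero {G : Type*} [AddGroup G] {Q : G} {p : ℕ} (hQ : addOrderOf Q = p)
    {k : ℕ} (h0 : 0 < k) (hk : k < p) : k • Q ≠ 0 := by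
  intro h
  have := addOrderOf_dvd_of_nsmul_eq_zero h
  rw [hQ] at this
  exact absurd (Nat.le_of_dvd h0 this) (by omega)

/-- translates of a point outside `⟨Q⟩` are nonzero. -/
theorem mzj_vh_add_nsmul_ne_zero {G : Type*} [AddGroup G] {Q P : G}
    (hP : P ∉ AddSubgroup.zmultiples Q) (k : ℕ) : P + k • Q ≠ 0 := by
  intro h
  apply hP
  have : P = -(k • Q) := eq_neg_of_add_eq_zero_left h
  rw [this]
  exact AddSubgroup.neg_mem _ (AddSubgroup.nsmul_mem _ (AddSubgroup.mem_zmultiples Q) k)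

theorem mzj_vh_ne_zero_of_not_mem {G : Type*} [AddGroup G] {Q P : G}
    (hP : P ∉ AddSubgroup.zmultiples Q) : P ≠ 0 :=
  fun h => hP (h ▸ AddSubgroup.zero_mem _)

/-- `X_{ψQ}(ψP) = X_Q(P) - r`. -/
theorem mzj_vh_X {W' : Affine F} (hW : C • W = W') (hΔ : W.Δ ≠ 0) (hu : C.u = 1) {p : ℕ}
    {Q : W.Point} (hQ : addOrderOf Q = p) {P : W.Point} (hP : P ∉ AddSubgroup.zmultiples Q) :
    mzj_ds_X W' p (mzj_vh_equiv C W hW hΔ Q) (mzj_vh_equiv C W hW hΔ P) =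
      mzj_ds_X W p Q P - C.r := by
  unfold mzj_ds_X
  rw [mzj_vh_x C W hW hΔ hu (mzj_vh_ne_zero_of_not_mem hP)]
  have : ∀ k ∈ Finset.Ico 1 p,
      mzj_ds_x W' (mzj_vh_equiv C W hW hΔ P + k • mzj_vh_equiv C W hW hΔ Q) -
        mzj_ds_x W' (k • mzj_vh_equiv C W hW hΔ Q) =
      mzj_ds_x W (P + k • Q) - mzj_ds_x W (k • Q) := by
    intro k hk
    rw [Finset.mem_Ico] at hk
    rw [← map_nsmul, ← map_add, mzj_vh_x C W hW hΔ hu (mzj_vh_add_nsmul_ne_zero hP k),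
      mzj_vh_x C W hW hΔ hu (mzj_vh_nsmul_ne_zero hQ (by omega) hk.2)]
    ring
  rw [Finset.sum_congr rfl this]
  ring

/-- `Y_{ψQ}(ψP) = Y_Q(P) - s (X_Q(P) - r) - t`. -/
theorem mzj_vh_Y {W' : Affine F} (hW : C • W = W') (hΔ : W.Δ ≠ 0) (hu : C.u = 1) {p : ℕ}
    {Q : W.Point} (hQ : addOrderOf Q = p) {P : W.Point} (hP : P ∉ AddSubgroup.zmultiples Q) :
    mzj_ds_Y W' p (mzj_vh_equiv C W hW hΔ Q) (mzj_vh_equiv C W hW hΔ P) =
      mzj_ds_Y W p Q P - C.s * (mzj_ds_X W p Q P - C.r) - C.t := by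
  unfold mzj_ds_Y mzj_ds_X
  rw [mzj_vh_y C W hW hΔ hu (mzj_vh_ne_zero_of_not_mem hP)]
  have : ∀ k ∈ Finset.Ico 1 p,
      mzj_ds_y W' (mzj_vh_equiv C W hW hΔ P + k • mzj_vh_equiv C W hW hΔ Q) -
        mzj_ds_y W' (k • mzj_vh_equiv C W hW hΔ Q) =
      (mzj_ds_y W (P + k • Q) - mzj_ds_y W (k • Q)) -
        C.s * (mzj_ds_x W (P + k • Q) - mzj_ds_x W (k • Q)) := by
    intro k hk
    rw [Finset.mem_Ico] at hk
    rw [← map_nsmul, ← map_add, mzj_vh_y C W hW hΔ hu (mzj_vh_add_nsmul_ne_zero hP k),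
      mzj_vh_y C W hW hΔ hu (mzj_vh_nsmul_ne_zero hQ (by omega) hk.2)]
    ring
  rw [Finset.sum_congr rfl this, Finset.sum_sub_distrib, ← Finset.mul_sum]
  ring

/-- `t'(ξ - r) = t(ξ)`. -/
theorem mzj_vh_t {W' : Affine F} (hW : C • W = W') (hu : C.u = 1) (ξ : F) :
    mzj_ds_t W' (ξ - C.r) = mzj_ds_t W ξ := by
  subst hW
  simp only [mzj_ds_t, variableChange_b₂, variableChange_b₄, mzj_vh_inv_one C hu]
  ring

/-- `u'(ξ - r) = u(ξ)`. -/
theorem mzj_vh_u {W' : Affine F} (hW : C • W = W') (hu : C.u = 1) (ξ : F) :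
    mzj_ds_u W' (ξ - C.r) = mzj_ds_u W ξ := by
  subst hW
  simp only [mzj_ds_u, variableChange_b₂, variableChange_b₄, variableChange_b₆,
    mzj_vh_inv_one C hu]
  ring

theorem mzj_vh_half_lt {p k : ℕ} (hk : k ∈ Finset.Icc 1 (p / 2)) : 0 < k ∧ k < p := by
  rw [Finset.mem_Icc] at hk
  omega

/-- `v(ψQ) = v(Q)`. -/
theorem mzj_vh_v {W' : Affine F} (hW : C • W = W') (hΔ : W.Δ ≠ 0) (hu : C.u = 1) {p : ℕ}
    {Q : W.Point} (hQ : addOrderOf Q = p) :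
    mzj_ds_v W' p (mzj_vh_equiv C W hW hΔ Q) = mzj_ds_v W p Q := by
  unfold mzj_ds_v
  refine Finset.sum_congr rfl fun k hk => ?_
  obtain ⟨h0, hkp⟩ := mzj_vh_half_lt hk
  rw [← map_nsmul, mzj_vh_x C W hW hΔ hu (mzj_vh_nsmul_ne_zero hQ h0 hkp), mzj_vh_t C W hW hu]

/-- `w(ψQ) = w(Q) - r v(Q)`. -/
theorem mzj_vh_w {W' : Affine F} (hW : C • W = W') (hΔ : W.Δ ≠ 0) (hu : C.u = 1) {p : ℕ}
    {Q : W.Point} (hQ : addOrderOf Q = p) :
    mzj_ds_w W' p (mzj_vh_equiv C W hW hΔ Q) = mzj_ds_w W p Q - C.r * mzj_ds_v W p Q := by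
  unfold mzj_ds_w mzj_ds_v
  rw [Finset.mul_sum, ← Finset.sum_sub_distrib]
  refine Finset.sum_congr rfl fun k hk => ?_
  obtain ⟨h0, hkp⟩ := mzj_vh_half_lt hk
  rw [← map_nsmul, mzj_vh_x C W hW hΔ hu (mzj_vh_nsmul_ne_zero hQ h0 hkp), mzj_vh_t C W hW hu,
    mzj_vh_u C W hW hu]
  ring

/-- `C • cod W v w = cod (C • W) v (w - r v)`. -/
theorem mzj_vh_cod (hu : C.u = 1) (v w : F) :
    C • mzj_ds_cod W v w = mzj_ds_cod (C • W) v (w - C.r * v) := by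
  ext
  · simp only [mzj_ds_cod, variableChange_a₁]
  · simp only [mzj_ds_cod, variableChange_a₂]
  · simp only [mzj_ds_cod, variableChange_a₃]
  · simp only [mzj_ds_cod, variableChange_a₄, mzj_vh_inv_one C hu]
    ring
  · simp only [mzj_ds_cod, variableChange_a₆, WeierstrassCurve.b₂, variableChange_a₁,
      variableChange_a₂, mzj_vh_inv_one C hu]
    ring

/-- The codomain curves correspond: `C • cod W v(Q) w(Q) = cod W' v(ψQ) w(ψQ)`. -/
theorem mzj_vh_cod_eq {W' : Affine F} (hW : C • W = W') (hΔ : W.Δ ≠ 0) (hu : C.u = 1) {p : ℕ}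
    {Q : W.Point} (hQ : addOrderOf Q = p) :
    C • mzj_ds_cod W (mzj_ds_v W p Q) (mzj_ds_w W p Q) =
      mzj_ds_cod W' (mzj_ds_v W' p (mzj_vh_equiv C W hW hΔ Q))
        (mzj_ds_w W' p (mzj_vh_equiv C W hW hΔ Q)) := by
  rw [mzj_vh_v C W hW hΔ hu hQ, mzj_vh_w C W hW hΔ hu hQ, mzj_vh_cod C W hu]
  subst hW
  rfl

theorem mzj_vh_mem_zmultiples {W' : Affine F} (hW : C • W = W') (hΔ : W.Δ ≠ 0) (Q P : W.Point) :
    mzj_vh_equiv C W hW hΔ P ∈ AddSubgroup.zmultiples (mzj_vh_equiv C W hW hΔ Q) ↔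
      P ∈ AddSubgroup.zmultiples Q := by
  simp only [AddSubgroup.mem_zmultiples_iff]
  constructor
  · rintro ⟨k, hk⟩
    refine ⟨k, (mzj_vh_equiv C W hW hΔ).injective ?_⟩
    rw [map_zsmul, hk]
  · rintro ⟨k, hk⟩
    refine ⟨k, ?_⟩
    rw [← map_zsmul, hk]

/-- The pull-back of a homomorphism between the changed curves. -/
noncomputable def mzj_vh_pull {W' Wc Wc' : Affine F} (hW : C • W = W') (hΔ : W.Δ ≠ 0)
    (hc : C • Wc = Wc') (hΔc : Wc.Δ ≠ 0) (φs : W'.Point →+ Wc'.Point) : W.Point →+ Wc.Point :=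
  ((mzj_vh_equiv C Wc hc hΔc).symm.toAddMonoidHom.comp φs).comp
    (mzj_vh_equiv C W hW hΔ).toAddMonoidHom

theorem mzj_vh_pull_apply {W' Wc Wc' : Affine F} (hW : C • W = W') (hΔ : W.Δ ≠ 0)
    (hc : C • Wc = Wc') (hΔc : Wc.Δ ≠ 0) (φs : W'.Point →+ Wc'.Point) (P : W.Point) :
    mzj_vh_pull C W hW hΔ hc hΔc φs P =
      (mzj_vh_equiv C Wc hc hΔc).symm (φs (mzj_vh_equiv C W hW hΔ P)) := rfl

theorem mzj_vh_pull_surjective {W' Wc Wc' : Affine F} (hW : C • W = W') (hΔ : W.Δ ≠ 0)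
    (hc : C • Wc = Wc') (hΔc : Wc.Δ ≠ 0) (φs : W'.Point →+ Wc'.Point)
    (hs : Function.Surjective φs) : Function.Surjective (mzj_vh_pull C W hW hΔ hc hΔc φs) := by
  intro R
  obtain ⟨P', hP'⟩ := hs (mzj_vh_equiv C Wc hc hΔc R)
  obtain ⟨P, rfl⟩ := (mzj_vh_equiv C W hW hΔ).surjective P'
  refine ⟨P, ?_⟩
  rw [mzj_vh_pull_apply, hP', AddEquiv.symm_apply_apply]

/-- The pull-back of a Velu isogeny is a Velu isogeny. -/
theorem mzj_vh_pull_isVelu {W' Wc Wc' : Affine F} (hW : C • W = W') (hΔ : W.Δ ≠ 0)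
    (hu : C.u = 1) (hc : C • Wc = Wc') (hΔc : Wc.Δ ≠ 0) {p : ℕ} {Q : W.Point}
    (hQ : addOrderOf Q = p) (φs : W'.Point →+ Wc'.Point)
    (hφs : mzj_ds_IsVelu W' p (mzj_vh_equiv C W hW hΔ Q) φs) :
    mzj_ds_IsVelu W p Q (mzj_vh_pull C W hW hΔ hc hΔc φs) := by
  refine ⟨?_, ?_⟩
  · ext P
    rw [AddMonoidHom.mem_ker, ← mzj_vh_mem_zmultiples C W hW hΔ Q P, ← hφs.ker,
      AddMonoidHom.mem_ker, mzj_vh_pull_apply, AddEquiv.map_eq_zero_iff]
  · intro P hP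
    have hP' : mzj_vh_equiv C W hW hΔ P ∉
        AddSubgroup.zmultiples (mzj_vh_equiv C W hW hΔ Q) := by
      rw [mzj_vh_mem_zmultiples C W hW hΔ Q P]; exact hP
    obtain ⟨h', hφ⟩ := hφs.coord _ hP'
    rw [mzj_vh_pull_apply]
    obtain ⟨R, hR⟩ := (mzj_vh_equiv C Wc hc hΔc).surjective (φs (mzj_vh_equiv C W hW hΔ P))
    rw [← hR, AddEquiv.symm_apply_apply]
    rcases R with _ | ⟨x, y, hxy⟩
    · exfalso
      have h0 : mzj_vh_equiv C Wc hc hΔc Point.zero = 0 := map_zero (mzj_vh_equiv C Wc hc hΔc)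
      rw [h0, hφ] at hR
      exact Point.some_ne_zero _ hR.symm
    · rw [hφ, mzj_vh_equiv_some] at hR
      have h1 := (Point.some.inj hR).1
      have h2 := (Point.some.inj hR).2
      rw [mzj_vh_X C W hW hΔ hu hQ hP, ← mzj_vh_X_one C hu] at h1
      have hx : x = mzj_ds_X W p Q P := lrvc_X_injective C h1
      subst hx
      rw [mzj_vh_Y C W hW hΔ hu hQ hP, ← mzj_vh_Y_one C hu] at h2
      have hy : y = mzj_ds_Y W p Q P := lrvc_Y_injective C _ h2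
      subst hy
      exact ⟨hxy, rfl⟩

/-- **Transfer of a Velu isogeny along a `u = 1` change of variables.** -/
theorem mzj_vh_transfer_isVelu {W' : Affine F} (hW : C • W = W') (hΔ : W.Δ ≠ 0) (hu : C.u = 1)
    {p : ℕ} {Q : W.Point} (hQ : addOrderOf Q = p)
    (hΔs : (mzj_ds_cod W' (mzj_ds_v W' p (mzj_vh_equiv C W hW hΔ Q))
      (mzj_ds_w W' p (mzj_vh_equiv C W hW hΔ Q))).Δ ≠ 0)
    (φs : W'.Point →+ (mzj_ds_cod W' (mzj_ds_v W' p (mzj_vh_equiv C W hW hΔ Q))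
      (mzj_ds_w W' p (mzj_vh_equiv C W hW hΔ Q))).Point)
    (hφs : mzj_ds_IsVelu W' p (mzj_vh_equiv C W hW hΔ Q) φs) :
    (mzj_ds_cod W (mzj_ds_v W p Q) (mzj_ds_w W p Q)).Δ ≠ 0 ∧
      ∃ φ : W.Point →+ (mzj_ds_cod W (mzj_ds_v W p Q) (mzj_ds_w W p Q)).Point,
        mzj_ds_IsVelu W p Q φ ∧ (Function.Surjective φs → Function.Surjective φ) := by
  have hcod := mzj_vh_cod_eq C W hW hΔ hu hQ
  have hΔc : (mzj_ds_cod W (mzj_ds_v W p Q) (mzj_ds_w W p Q)).Δ ≠ 0 := by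
    intro h0
    apply hΔs
    rw [← hcod, variableChange_Δ, h0, mul_zero]
  exact ⟨hΔc, mzj_vh_pull C W hW hΔ hcod hΔc φs,
    mzj_vh_pull_isVelu C W hW hΔ hu hcod hΔc hQ φs hφs,
    mzj_vh_pull_surjective C W hW hΔ hcod hΔc φs⟩

/-- Velu's statement for `(W, p, Q)`: the codomain curve is nonsingular and there is a surjective
Velu isogeny onto it. -/
def mzj_vh_Stmt (W : Affine F) (p : ℕ) (Q : W.Point) : Prop :=
  (mzj_ds_cod W (mzj_ds_v W p Q) (mzj_ds_w W p Q)).Δ ≠ 0 ∧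
    ∃ φ : W.Point →+ (mzj_ds_cod W (mzj_ds_v W p Q) (mzj_ds_w W p Q)).Point,
      mzj_ds_IsVelu W p Q φ ∧ Function.Surjective φ

/-- **Transfer of Velu's statement along a `u = 1` change of variables.** -/
theorem mzj_vh_transfer {W' : Affine F} (hW : C • W = W') (hΔ : W.Δ ≠ 0) (hu : C.u = 1)
    {p : ℕ} {Q : W.Point} (hQ : addOrderOf Q = p)
    (h : mzj_vh_Stmt W' p (mzj_vh_equiv C W hW hΔ Q)) : mzj_vh_Stmt W p Q := by
  obtain ⟨hΔs, φs, hφs, hsurj⟩ := h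
  obtain ⟨hΔc, φ, hφ, hs⟩ := mzj_vh_transfer_isVelu C W hW hΔ hu hQ hΔs φs hφs
  exact ⟨hΔc, φ, hφ, hs hsurj⟩

end generic

section short

variable {F : Type*} [Field F] [DecidableEq F]

/-- The `u = 1` change of variables taking `W` to short form (characteristic `≠ 2, 3`). -/
def mzj_vh_C (W : Affine F) : VariableChange F :=
  ⟨1, -W.b₂ / 12, -W.a₁ / 2, -(W.a₃ + -W.b₂ / 12 * W.a₁) / 2⟩

theorem mzj_vh_C_u (W : Affine F) : (mzj_vh_C W).u = 1 := rfl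

theorem mzj_vh_C_smul (W : Affine F) (h2 : (2 : F) ≠ 0) (h3 : (3 : F) ≠ 0) :
    mzj_vh_C W • W = ⟨0, 0, 0, (mzj_vh_C W • W).a₄, (mzj_vh_C W • W).a₆⟩ := by
  have h12 : (12 : F) ≠ 0 := by
    have : (12 : F) = 2 * 2 * 3 := by norm_num
    rw [this]; exact mul_ne_zero (mul_ne_zero h2 h2) h3
  ext
  · simp only [variableChange_a₁, mzj_vh_inv_one _ (mzj_vh_C_u W)]
    simp only [mzj_vh_C]
    field_simp
    ring
  · simp only [variableChange_a₂, mzj_vh_inv_one _ (mzj_vh_C_u W)]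
    simp only [mzj_vh_C, WeierstrassCurve.b₂]
    field_simp
    ring
  · simp only [variableChange_a₃, mzj_vh_inv_one _ (mzj_vh_C_u W)]
    simp only [mzj_vh_C]
    field_simp
    ring
  · rfl
  · rfl

/-- **Velu's statement for all short curves implies it for all curves** (characteristic
`≠ 2, 3`). -/
theorem mzj_vh_of_short (h2 : (2 : F) ≠ 0) (h3 : (3 : F) ≠ 0) {p : ℕ}
    (H : ∀ (A B : F) (Q : Affine.Point (⟨0, 0, 0, A, B⟩ : Affine F)),
      (⟨0, 0, 0, A, B⟩ : Affine F).Δ ≠ 0 → addOrderOf Q = p →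
        mzj_vh_Stmt (⟨0, 0, 0, A, B⟩ : Affine F) p Q)
    (W : Affine F) (hΔ : W.Δ ≠ 0) (Q : W.Point) (hQ : addOrderOf Q = p) :
    mzj_vh_Stmt W p Q := by
  have hW := mzj_vh_C_smul W h2 h3
  refine mzj_vh_transfer (mzj_vh_C W) W hW hΔ (mzj_vh_C_u W) hQ ?_
  refine H _ _ _ ?_ ?_
  · rw [← hW]
    exact lrvc_Δ (mzj_vh_C W) W hΔ
  · rw [AddEquiv.addOrderOf_eq, hQ]

end short

end Fermat.Agent.MZ
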