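/-
[MZ-J]/[J-QUOT], analytic supplier: THE FINAL ASSEMBLY.

`mzj_ds_main : mzj_qs_gen_stmt` (generator form of the Velu seam, `MZ/J/QuotSeam.lean`), hence
`mzj_ds_velu : mzj_Velu_stmt` (the seam of `MZ/J/SeamsQ.lean`).

Chain: helper7's complex Velu isogeny for short curves (`MZ/J/An/Short.lean`, via
`Ds/CShort.lean`) → general Weierstrass form over `ℂ` (helper7's `Ds/VarCh.lean`) → descent along
`Point.map ι`, `ι : Q̄ →ₐ[ℚ] ℂ` (`Ds/Descend.lean`) → rationality of the coefficients and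
Galois-equivariance (`Ds/Rat.lean`) → `X`-formula over the set of abscissae (helper2's
`MZ/J/An/PairSx.lean`) → surjectivity over `Q̄` (`Ds/Surj.lean`).

Owner: helper29.  Prefix `mzj_ds_`.
-/
import Fermat.Agent.MZ.J.Ds.Defs
import Fermat.Agent.MZ.J.Ds.Descend
import Fermat.Agent.MZ.J.Ds.Rat
import Fermat.Agent.MZ.J.Ds.Surj
import Fermat.Agent.MZ.J.Ds.CShort
import Fermat.Agent.MZ.J.Ds.VarCh
import Fermat.Agent.MZ.J.An.PairSx
import Fermat.Agent.MZ.J.QuotSeam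

set_option autoImplicit false
set_option linter.unusedSectionVars false

namespace Fermat.Agent.MZ

open WeierstrassCurve WeierstrassCurve.Affine WeierstrassCurve.Affine.Point Fermat.Agent.S58

section generic

variable {F : Type*} [Field F] [DecidableEq F]

/-- Transport of a Velu isogeny along an equality of codomain curves. -/
theorem mzj_ds_isVelu_congr {W W' W'' : Affine F} (h : W' = W'') {p : ℕ} {Q : W.Point}
    (φ : W.Point →+ W'.Point) (hφ : mzj_ds_IsVelu W p Q φ) (hs : Function.Surjective φ) :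
    ∃ φ' : W.Point →+ W''.Point, mzj_ds_IsVelu W p Q φ' ∧ Function.Surjective φ' := by
  subst h
  exact ⟨φ, hφ, hs⟩

/-- Velu's statement for every curve over `ℂ` (general Weierstrass form). -/
theorem mzj_ds_complex (W : Affine ℂ) (hΔ : W.Δ ≠ 0) {p : ℕ} (hp : p.Prime) (hp2 : p ≠ 2)
    (Q : W.Point) (hQ : addOrderOf Q = p) : mzj_vh_Stmt W p Q := by
  refine mzj_vh_of_short (by norm_num) (by norm_num) ?_ W hΔ Q hQ
  intro A B Q' hΔ' hQ'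
  obtain ⟨h1, φ, hs, hφ⟩ := mzj_ds_cshort (⟨0, 0, 0, A, B⟩ : Affine ℂ) rfl rfl rfl hΔ' hp hp2 Q' hQ'
  exact ⟨h1, φ, hφ, hs⟩

end generic

section rational

variable (E : WeierstrassCurve ℚ)

theorem mzj_ds_vt_eq (ξ : s58_Qb) : mzj_vt E ξ = mzj_ds_t (E⁄s58_Qb) ξ := by
  simp [mzj_vt, mzj_ds_t, WeierstrassCurve.baseChange]

theorem mzj_ds_vu_eq (ξ : s58_Qb) : mzj_vu E ξ = mzj_ds_u (E⁄s58_Qb) ξ := by
  simp [mzj_vu, mzj_ds_u, WeierstrassCurve.baseChange]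

/-- A nonzero point of a cyclic group of odd prime order is not `2`-torsion. -/
theorem mzj_ds_two_nsmul_ne_zero {G : Type*} [AddGroup G] {p : ℕ} (hp : p.Prime) (hp2 : p ≠ 2)
    {Q R : G} (hQ : addOrderOf Q = p) (hR : R ∈ AddSubgroup.zmultiples Q) (hR0 : R ≠ 0) :
    (2 : ℕ) • R ≠ 0 := by
  intro h2
  obtain ⟨k, rfl⟩ := AddSubgroup.mem_zmultiples_iff.mp hR
  have hpR : p • (k • Q) = 0 := by
    rw [← natCast_zsmul, smul_comm, natCast_zsmul, ← hQ, addOrderOf_nsmul_eq_zero, smul_zero]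
  have h1 : addOrderOf (k • Q) ∣ 2 := addOrderOf_dvd_of_nsmul_eq_zero h2
  have h3 : addOrderOf (k • Q) ∣ p := addOrderOf_dvd_of_nsmul_eq_zero hpR
  have hcop : Nat.Coprime 2 p := (Nat.coprime_primes Nat.prime_two hp).mpr (Ne.symm hp2)
  have h4 : addOrderOf (k • Q) = 1 := Nat.eq_one_of_dvd_coprimes hcop h1 h3
  exact hR0 (AddMonoid.addOrderOf_eq_one_iff.mp h4)

/-- **[J-QUOT], generator form, by the analytic route.** -/
theorem mzj_ds_main : mzj_qs_gen_stmt := by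
  intro E hΔ p hp hp2 Q hQ hst
  obtain ⟨m, rfl⟩ : ∃ m, p = 2 * m + 1 := by
    rcases hp.eq_two_or_odd with h | h
    · exact absurd h hp2
    · exact ⟨p / 2, by omega⟩
  have hp0 : 0 < 2 * m + 1 := by omega
  -- the set of abscissae
  obtain ⟨S, hSdef⟩ : ∃ S : Finset s58_Qb, S = mzj_pr_Sx m Q := ⟨_, rfl⟩
  have hS : ∀ ξ : s58_Qb, ξ ∈ S ↔ ∃ (y : s58_Qb) (h : (E⁄s58_Qb).Nonsingular ξ y),
      Point.some ξ y h ∈ AddSubgroup.zmultiples Q := by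
    intro ξ
    rw [hSdef]
    exact mzj_pr_mem_Sx m Q hQ ξ
  -- `v`, `w` as sums over `S`
  have hvS : mzj_ds_v (E⁄s58_Qb) (2 * m + 1) Q = ∑ ξ ∈ S, mzj_ds_t (E⁄s58_Qb) ξ := by
    unfold mzj_ds_v
    rw [mzj_ds_Icc_half, hSdef, mzj_pr_sum_Sx _ m Q hQ]
    simp only [mzj_ds_x_eq_pr]
  have hwS : mzj_ds_w (E⁄s58_Qb) (2 * m + 1) Q =
      ∑ ξ ∈ S, (mzj_ds_u (E⁄s58_Qb) ξ + ξ * mzj_ds_t (E⁄s58_Qb) ξ) := by
    unfold mzj_ds_w
    rw [mzj_ds_Icc_half, hSdef, mzj_pr_sum_Sx _ m Q hQ]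
    simp only [mzj_ds_x_eq_pr]
  -- Galois invariance, rationality
  have hstab : ∀ σ : s58_G, ∀ P ∈ AddSubgroup.zmultiples Q, σ • P ∈ AddSubgroup.zmultiples Q :=
    fun σ P hP => mzj_ds_smul_mem E σ (hst σ) hP
  have ht : ∀ (σ : s58_G) (ξ : s58_Qb),
      mzj_ds_t (E⁄s58_Qb) (σ ξ) = σ (mzj_ds_t (E⁄s58_Qb) ξ) :=
    fun σ ξ => mzj_ds_t_map E σ.toAlgHom ξ
  have hu : ∀ (σ : s58_G) (ξ : s58_Qb),
      mzj_ds_u (E⁄s58_Qb) (σ ξ) = σ (mzj_ds_u (E⁄s58_Qb) ξ) :=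
    fun σ ξ => mzj_ds_u_map E σ.toAlgHom ξ
  have hvfix : ∀ σ : s58_G, σ (mzj_ds_v (E⁄s58_Qb) (2 * m + 1) Q) =
      mzj_ds_v (E⁄s58_Qb) (2 * m + 1) Q := by
    intro σ
    rw [hvS]
    exact mzj_ds_sum_fixed S _ hS σ (hstab σ) _ (ht σ)
  have hwfix : ∀ σ : s58_G, σ (mzj_ds_w (E⁄s58_Qb) (2 * m + 1) Q) =
      mzj_ds_w (E⁄s58_Qb) (2 * m + 1) Q := by
    intro σ
    rw [hwS]
    refine mzj_ds_sum_fixed S _ hS σ (hstab σ) _ (fun ξ => ?_)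
    rw [map_add, map_mul, hu, ht]
  have _ : IsAlgClosure ℚ s58_Qb := ⟨inferInstance, AlgebraicClosure.isAlgebraic ℚ⟩
  have _ : IsGalois ℚ s58_Qb := inferInstance
  obtain ⟨v₀, hv₀⟩ := (InfiniteGalois.mem_range_algebraMap_iff_fixed (k := ℚ) (K := s58_Qb)
    _).mpr hvfix
  obtain ⟨w₀, hw₀⟩ := (InfiniteGalois.mem_range_algebraMap_iff_fixed (k := ℚ) (K := s58_Qb)
    _).mpr hwfix
  -- the quotient curve over `ℚ`
  obtain ⟨E', hE'⟩ : ∃ E' : WeierstrassCurve ℚ,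
      E' = ⟨E.a₁, E.a₂, E.a₃, E.a₄ - 5 * v₀, E.a₆ - E.b₂ * v₀ - 7 * w₀⟩ := ⟨_, rfl⟩
  -- the complex side
  have : Algebra.IsAlgebraic ℚ s58_Qb := AlgebraicClosure.isAlgebraic ℚ
  obtain ⟨ι⟩ : Nonempty (s58_Qb →ₐ[ℚ] ℂ) := ⟨IsAlgClosed.lift⟩
  have hQC : addOrderOf (Point.map ι Q) = 2 * m + 1 :=
    (addOrderOf_injective (Point.map (W' := E) ι) (Point.map_injective ι) Q).trans hQ
  have hΔC : (E⁄ℂ).Δ ≠ 0 := by
    simp only [WeierstrassCurve.baseChange, WeierstrassCurve.map_Δ]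
    exact (map_ne_zero_iff _ (algebraMap ℚ ℂ).injective).mpr hΔ
  obtain ⟨hΔc, φC, hφC, hsC⟩ := mzj_ds_complex (E⁄ℂ) hΔC hp hp2 (Point.map ι Q) hQC
  have hcod : mzj_ds_cod (E⁄ℂ) (mzj_ds_v (E⁄ℂ) (2 * m + 1) (Point.map ι Q))
      (mzj_ds_w (E⁄ℂ) (2 * m + 1) (Point.map ι Q)) = E'⁄ℂ := by
    rw [mzj_ds_v_map, mzj_ds_w_map, ← hv₀, ← hw₀, hE']
    ext <;> simp [mzj_ds_cod, WeierstrassCurve.baseChange]
  obtain ⟨φC', hφC', hsC'⟩ := mzj_ds_isVelu_congr hcod φC hφC hsC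
  -- descent to `Q̄`
  obtain ⟨φ, hφ, hcomm⟩ := mzj_ds_descend (E := E) (E' := E') ι (2 * m + 1) Q φC' hφC'
  -- the `X`-formula
  have hXform : ∀ (x y : s58_Qb) (h : (E⁄s58_Qb).Nonsingular x y),
      Point.some x y h ∉ AddSubgroup.zmultiples Q →
      ∃ (Y : s58_Qb) (h' : (E'⁄s58_Qb).Nonsingular
          (x + ∑ ξ ∈ S, (mzj_vt E ξ / (x - ξ) + mzj_vu E ξ / (x - ξ) ^ 2)) Y),
        φ (Point.some x y h) = Point.some _ Y h' := by
    intro x y h hnot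
    obtain ⟨h', e⟩ := hφ.coord _ hnot
    have hXeq : mzj_ds_X (E⁄s58_Qb) (2 * m + 1) Q (Point.some x y h) =
        x + ∑ ξ ∈ S, (mzj_vt E ξ / (x - ξ) + mzj_vu E ξ / (x - ξ) ^ 2) := by
      unfold mzj_ds_X
      rw [mzj_ds_x_some]
      congr 1
      have := mzj_pr_velu_X_Sx m Q hQ (Point.some x y h) hnot
      simp only [← mzj_ds_x_eq_pr, mzj_ds_x_some] at this
      rw [this, hSdef]
      refine Finset.sum_congr rfl fun ξ _ => ?_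
      rw [mzj_ds_vt_eq, mzj_ds_vu_eq]
      rfl
    have key : ∀ X' : s58_Qb, mzj_ds_X (E⁄s58_Qb) (2 * m + 1) Q (Point.some x y h) = X' →
        ∃ (Y : s58_Qb) (h'' : (E'⁄s58_Qb).Nonsingular X' Y),
          φ (Point.some x y h) = Point.some X' Y h'' := by
      intro X' hX'
      subst hX'
      exact ⟨_, h', e⟩
    exact key _ hXeq
  have hΔQ : (E⁄s58_Qb).Δ ≠ 0 := by
    simp only [WeierstrassCurve.baseChange, WeierstrassCurve.map_Δ]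
    exact (map_ne_zero_iff _ (algebraMap ℚ s58_Qb).injective).mpr hΔ
  refine ⟨E', φ, S, ?_, ?_, hφ.ker, ?_, hS, ?_, ?_, ?_, ?_, ?_, hXform⟩
  · -- `Δ' ≠ 0`
    intro h0
    apply hΔc
    rw [hcod]
    simp only [WeierstrassCurve.baseChange, WeierstrassCurve.map_Δ, h0, _root_.map_zero]
  · -- surjectivity
    refine mzj_sj_main (E⁄s58_Qb) (E'⁄s58_Qb) hΔQ φ S (mzj_vt E) (mzj_vu E) ?_ ?_
    · intro ξ hξ
      obtain ⟨y, h, hmem⟩ := (hS ξ).mp hξ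
      have h2 := mzj_ds_two_nsmul_ne_zero hp hp2 hQ hmem (Point.some_ne_zero _)
      rw [mzj_ds_vu_eq]
      exact mzj_sj_u_ne_zero (E⁄s58_Qb) h h2
    · intro x y h hx
      refine hXform x y h fun hmem => hx ((hS x).mpr ⟨y, h, hmem⟩)
  · -- equivariance
    exact fun σ x => mzj_ds_equivariant hp0 hQ hst φ hφ σ x
  · rw [hE']
  · rw [hE']
  · rw [hE']
  · rw [hE']
    show algebraMap ℚ s58_Qb (E.a₄ - 5 * v₀) = _
    rw [map_sub, map_mul, hv₀, hvS, map_ofNat]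
    simp only [mzj_ds_vt_eq]
  · rw [hE']
    show algebraMap ℚ s58_Qb (E.a₆ - E.b₂ * v₀ - 7 * w₀) = _
    rw [map_sub, map_sub, map_mul, map_mul, hv₀, hw₀, hvS, hwS, map_ofNat]
    simp only [mzj_ds_vt_eq, mzj_ds_vu_eq]

/-- **[J-QUOT]: the Velu seam `mzj_Velu_stmt`, by the analytic route.** -/
theorem mzj_ds_velu : mzj_Velu_stmt := mzj_qs_of_gen mzj_ds_main

end rational

end Fermat.Agent.MZ
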