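/-
[MZ-J]/[J-QUOT], analytic supplier: THE COMPLEX INPUT IN `Ds` VOCABULARY.

`An/Short.lean` proves Velu's theorem over `ℂ` for a short curve `⟨0,0,0,A,B⟩` in coefficient form
(`mzj_av_short`: full sums `v = Σ_{0<k<p} (3x_k² + A)`, `w = Σ_{0<k<p} (5x_k³ + 3Ax_k + 2B)`,
`y(φP) = y_P + Σ y(P + kQ)`).  Here it is rewritten in the vocabulary of `Ds/Defs.lean`
(half-system `mzj_ds_v`, `mzj_ds_w`, `mzj_ds_cod`, `mzj_ds_IsVelu`) for `p` an odd prime, and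
combined with `Ds/VarCh.lean` (`mzj_vh_of_short`) to give Velu's theorem over `ℂ` for a general
Weierstrass equation:

* `mzj_vk_short`   : `mzj_vh_Stmt ⟨0,0,0,A,B⟩ p Q` over `ℂ`;
* `mzj_vk_complex` : `mzj_vh_Stmt W p Q` for every `W : Affine ℂ` with `Δ ≠ 0`, `Q` of odd prime
                     order `p` (any `DecidableEq ℂ` instance: `mzj_vk_complex'`).

Owner: helper7.  Prefix `mzj_vk_`.
-/
import Mathlib
import Fermat.Agent.MZ.J.An.Short
import Fermat.Agent.MZ.J.An.Pair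
import Fermat.Agent.MZ.J.Ds.VarCh

set_option autoImplicit false
set_option linter.unusedSectionVars false

namespace Fermat.Agent.MZ

open WeierstrassCurve WeierstrassCurve.Affine WeierstrassCurve.Affine.Point

section vocab

variable {F : Type*} [Field F] [DecidableEq F]

theorem mzj_vk_x_eq_px (W : Affine F) (P : W.Point) : mzj_ds_x W P = mzj_av_px P := by
  cases P <;> rfl

theorem mzj_vk_y_eq_py (W : Affine F) (P : W.Point) : mzj_ds_y W P = mzj_av_py P := by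
  cases P <;> rfl

theorem mzj_vk_x_eq_prX (W : Affine F) (P : W.Point) : mzj_ds_x W P = mzj_pr_X P := by
  cases P <;> rfl

/-- In short form `y(-R) = -y(R)`. -/
theorem mzj_vk_y_neg (W : Affine F) (h1 : W.a₁ = 0) (h3 : W.a₃ = 0) (R : W.Point) :
    mzj_ds_y W (-R) = -mzj_ds_y W R := by
  rcases R with _ | ⟨x, y, h⟩
  · show mzj_ds_y W (-0) = -mzj_ds_y W 0
    rw [_root_.neg_zero, mzj_ds_y_zero, _root_.neg_zero]
  · rw [Point.neg_some, mzj_ds_y_some, mzj_ds_y_some, negY, h1, h3]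
    ring

/-- In short form `Σ_{0<k<2m+1} y(kQ) = 0`. -/
theorem mzj_vk_sum_y (W : Affine F) (h1 : W.a₁ = 0) (h3 : W.a₃ = 0) (m : ℕ) (Q : W.Point)
    (hQ : (2 * m + 1) • Q = 0) :
    ∑ k ∈ Finset.Ico 1 (2 * m + 1), mzj_ds_y W (k • Q) = 0 := by
  rw [mzj_pr_half (fun R => mzj_ds_y W R) Q m hQ]
  refine Finset.sum_eq_zero fun k _ => ?_
  rw [mzj_vk_y_neg W h1 h3, add_neg_cancel]

/-- Half-system `v` in short form. -/
theorem mzj_vk_v (W : Affine F) (h1 : W.a₁ = 0) (h2 : W.a₂ = 0) (h3 : W.a₃ = 0) (m : ℕ)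
    (Q : W.Point) (hQ : (2 * m + 1) • Q = 0) :
    mzj_ds_v W (2 * m + 1) Q =
      ∑ k ∈ Finset.Ico 1 (2 * m + 1), (3 * mzj_ds_x W (k • Q) ^ 2 + W.a₄) := by
  have hm : (2 * m + 1) / 2 = m := by omega
  unfold mzj_ds_v
  rw [hm, ← Finset.Ico_add_one_right_eq_Icc]
  have := mzj_pr_v_short (W := W) h1 h2 h3 m Q hQ
  simp only [← mzj_vk_x_eq_prX] at this
  rw [this]
  rfl

/-- Half-system `w` in short form. -/
theorem mzj_vk_w (W : Affine F) (h1 : W.a₁ = 0) (h2 : W.a₂ = 0) (h3 : W.a₃ = 0) (m : ℕ)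
    (Q : W.Point) (hQ : (2 * m + 1) • Q = 0) :
    mzj_ds_w W (2 * m + 1) Q =
      ∑ k ∈ Finset.Ico 1 (2 * m + 1),
        (5 * mzj_ds_x W (k • Q) ^ 3 + 3 * W.a₄ * mzj_ds_x W (k • Q) + 2 * W.a₆) := by
  have hm : (2 * m + 1) / 2 = m := by omega
  unfold mzj_ds_w
  rw [hm, ← Finset.Ico_add_one_right_eq_Icc]
  have := mzj_pr_w_short (W := W) h1 h2 h3 m Q hQ
  simp only [← mzj_vk_x_eq_prX] at this
  rw [this]
  rfl

/-- A nonzero point with prescribed coordinates. -/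
theorem mzj_vk_eq_some (W : Affine F) {R : W.Point} (hR : R ≠ 0) {X Y : F}
    (hX : mzj_ds_x W R = X) (hY : mzj_ds_y W R = Y) :
    ∃ h : W.Nonsingular X Y, R = Point.some X Y h := by
  subst hX hY
  exact mzj_ds_eq_some W hR

end vocab

section complex

theorem mzj_vk_sw_Δ {F : Type*} [CommRing F] (A B : F) :
    (mzj_av_sw A B).Δ = -16 * (4 * A ^ 3 + 27 * B ^ 2) := by
  simp only [mzj_av_sw, WeierstrassCurve.Δ, WeierstrassCurve.b₂, WeierstrassCurve.b₄,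
    WeierstrassCurve.b₆, WeierstrassCurve.b₈]
  ring

theorem mzj_vk_sw_cod {F : Type*} [Field F] (A B v w : F) :
    mzj_av_sw (A - 5 * v) (B - 7 * w) = mzj_ds_cod (mzj_av_sw A B) v w := by
  ext
  · rfl
  · rfl
  · rfl
  · rfl
  · simp only [mzj_av_sw, mzj_ds_cod, WeierstrassCurve.b₂]
    ring

/-- **Velu's theorem over `ℂ` for short curves, `Ds` vocabulary.** -/
theorem mzj_vk_short (A B : ℂ) {p : ℕ} (hp : p.Prime) (hp2 : p ≠ 2)
    (Q : (mzj_av_sw A B).toAffine.Point)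
    (hΔ : (mzj_av_sw A B).Δ ≠ 0) (hQ : addOrderOf Q = p) :
    mzj_vh_Stmt (mzj_av_sw A B) p Q := by
  obtain ⟨m, rfl⟩ : ∃ m, p = 2 * m + 1 := by
    rcases hp.eq_two_or_odd' with h | h
    · exact absurd h hp2
    · exact h
  have hQ0 : (2 * m + 1) • Q = 0 := by rw [← hQ]; exact addOrderOf_nsmul_eq_zero Q
  have hΔ' : 4 * A ^ 3 + 27 * B ^ 2 ≠ 0 := by
    intro h0
    apply hΔ
    rw [mzj_vk_sw_Δ, h0, mul_zero]
  obtain ⟨hΔc, φ, hsurj, hker, hform⟩ := mzj_av_short A B hΔ' hp Q hQ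
  -- the two descriptions of `v`, `w`
  have hv : mzj_ds_v (mzj_av_sw A B) (2 * m + 1) Q = mzj_av_v A B (2 * m + 1) Q := by
    rw [mzj_vk_v (mzj_av_sw A B) rfl rfl rfl m Q hQ0]
    unfold mzj_av_v
    refine Finset.sum_congr rfl fun k _ => ?_
    rw [mzj_vk_x_eq_px]
    rfl
  have hw : mzj_ds_w (mzj_av_sw A B) (2 * m + 1) Q = mzj_av_w A B (2 * m + 1) Q := by
    rw [mzj_vk_w (mzj_av_sw A B) rfl rfl rfl m Q hQ0]
    unfold mzj_av_w
    refine Finset.sum_congr rfl fun k _ => ?_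
    rw [mzj_vk_x_eq_px]
    rfl
  have hcod : mzj_av_sw (A - 5 * mzj_av_v A B (2 * m + 1) Q) (B - 7 * mzj_av_w A B (2 * m + 1) Q) =
      mzj_ds_cod (mzj_av_sw A B) (mzj_ds_v (mzj_av_sw A B) (2 * m + 1) Q)
        (mzj_ds_w (mzj_av_sw A B) (2 * m + 1) Q) := by
    rw [hv, hw, mzj_vk_sw_cod]
  obtain ⟨e, he⟩ := mzj_av_transport hcod
  refine ⟨?_, e.toAddMonoidHom.comp φ, ⟨?_, ?_⟩, e.surjective.comp hsurj⟩
  · rw [← hcod, mzj_vk_sw_Δ]
    exact mul_ne_zero (by norm_num) hΔc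
  · ext P
    exact ⟨fun h => (SetLike.ext_iff.1 hker P).1 (e.map_eq_zero_iff.1 h),
      fun h => e.map_eq_zero_iff.2 ((SetLike.ext_iff.1 hker P).2 h)⟩
  · intro P hP
    have hne : (e.toAddMonoidHom.comp φ) P ≠ 0 := by
      intro h0
      apply hP
      rw [← hker, AddMonoidHom.mem_ker]
      exact e.map_eq_zero_iff.1 h0
    obtain ⟨hx, hy⟩ := hform P hP
    refine mzj_vk_eq_some _ hne ?_ ?_
    · rw [mzj_vk_x_eq_px]
      show mzj_av_px (e (φ P)) = _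
      rw [(he (φ P)).1, hx]
      unfold mzj_ds_X
      simp only [mzj_vk_x_eq_px]
    · rw [mzj_vk_y_eq_py]
      show mzj_av_py (e (φ P)) = _
      rw [(he (φ P)).2, hy]
      unfold mzj_ds_Y
      rw [Finset.sum_sub_distrib, mzj_vk_sum_y (mzj_av_sw A B) rfl rfl m Q hQ0, sub_zero]
      simp only [mzj_vk_y_eq_py]

/-- **Velu's theorem over `ℂ`, general Weierstrass form, `Ds` vocabulary.** -/
theorem mzj_vk_complex (W : Affine ℂ) (hΔ : W.Δ ≠ 0) {p : ℕ} (hp : p.Prime) (hp2 : p ≠ 2)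
    (Q : W.Point) (hQ : addOrderOf Q = p) : mzj_vh_Stmt W p Q :=
  mzj_vh_of_short (by norm_num) (by norm_num)
    (fun A B Q' hΔ' hQ' => mzj_vk_short A B hp hp2 Q' hΔ' hQ') W hΔ Q hQ

/-- The same for an arbitrary `DecidableEq ℂ` instance. -/
theorem mzj_vk_complex' [inst : DecidableEq ℂ] (W : Affine ℂ) (hΔ : W.Δ ≠ 0) {p : ℕ}
    (hp : p.Prime) (hp2 : p ≠ 2) (Q : W.Point) (hQ : addOrderOf Q = p) : mzj_vh_Stmt W p Q := by
  have hi : inst = Complex.instDecidableEq := Subsingleton.elim _ _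
  subst hi
  exact mzj_vk_complex W hΔ hp hp2 Q hQ

end complex

end Fermat.Agent.MZ
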